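import Mathlib
import Fermat.Agent.ModFun.Conv

/-!
# Monic equations over `K[j]` with degree bounds
-/

set_option autoImplicit false

open UpperHalfPlane Complex Function ModularCurve MatrixGroups ModularForm
open Fermat.Agent.X0Emb Fermat.Agent.JLevelOne Fermat.Agent.ModFun
open scoped Polynomial Manifold

noncomputable section

namespace Fermat.Agent.TriGauss

/-- growth at most `Δ^{-c}` at all cusps -/
def GB (c : ℕ) (F : ℍ → ℂ) : Prop :=
  ∀ σ : SL(2, ℤ), IsBoundedAtImInfty (fun τ => F (σ • τ) * discriminant τ ^ c)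

theorem isBoundedAtImInfty_sum {ι : Type*} (s : Finset ι) {f : ι → ℍ → ℂ}
    (h : ∀ i ∈ s, IsBoundedAtImInfty (f i)) : IsBoundedAtImInfty (fun τ => ∑ i ∈ s, f i τ) := by
  classical
  induction s using Finset.induction_on with
  | empty => simpa using! Filter.const_boundedAtFilter atImInfty (0 : ℂ)
  | insert a s ha ih =>
    simp only [Finset.sum_insert ha]
    exact (h a (Finset.mem_insert_self _ _)).add (ih fun i hi => h i (Finset.mem_insert_of_mem hi))

theorem isBoundedAtImInfty_prod {ι : Type*} (s : Finset ι) {f : ι → ℍ → ℂ}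
    (h : ∀ i ∈ s, IsBoundedAtImInfty (f i)) : IsBoundedAtImInfty (fun τ => ∏ i ∈ s, f i τ) := by
  classical
  induction s using Finset.induction_on with
  | empty => simpa using! Filter.const_boundedAtFilter atImInfty (1 : ℂ)
  | insert a s ha ih =>
    simp only [Finset.prod_insert ha]
    exact (h a (Finset.mem_insert_self _ _)).mul (ih fun i hi => h i (Finset.mem_insert_of_mem hi))

section Esymm

variable {Γ : Subgroup SL(2, ℤ)} [Γ.FiniteIndex] {u : ℍ → ℂ} (hu : IsModFun Γ u)

/-- elementary symmetric functions of the conjugates -/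
def esymmF (k : ℕ) : polInf :=
  ∑ t ∈ Finset.powersetCard k (Finset.univ : Finset (SL(2, ℤ) ⧸ Γ)), ∏ q ∈ t, conjF hu q

theorem esymmF_apply (k : ℕ) (τ : ℍ) : (esymmF hu k : ℍ → ℂ) τ =
    ∑ t ∈ Finset.powersetCard k (Finset.univ : Finset (SL(2, ℤ) ⧸ Γ)),
      ∏ q ∈ t, (conjF hu q : ℍ → ℂ) τ := by
  rw [← evP_apply, esymmF, map_sum]
  refine Finset.sum_congr rfl fun t _ => ?_
  rw [map_prod]
  rfl

theorem esymmF_smul (k : ℕ) (γ : SL(2, ℤ)) (τ : ℍ) :
    (esymmF hu k : ℍ → ℂ) (γ • τ) = (esymmF hu k : ℍ → ℂ) τ := by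
  classical
  rw [esymmF_apply, esymmF_apply]
  simp only [conjF_smul]
  refine Finset.sum_bij' (fun t _ => t.map (MulAction.toPerm (γ⁻¹) :
      Equiv.Perm (SL(2, ℤ) ⧸ Γ)).toEmbedding)
    (fun t _ => t.map (MulAction.toPerm γ : Equiv.Perm (SL(2, ℤ) ⧸ Γ)).toEmbedding) ?_ ?_ ?_ ?_ ?_
  · intro t ht
    rw [Finset.mem_powersetCard] at ht ⊢
    exact ⟨Finset.subset_univ _, by rw [Finset.card_map, ht.2]⟩
  · intro t ht
    rw [Finset.mem_powersetCard] at ht ⊢
    exact ⟨Finset.subset_univ _, by rw [Finset.card_map, ht.2]⟩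
  · intro t _
    ext x
    simp
  · intro t _
    ext x
    simp
  · intro t _
    rw [Finset.prod_map]
    rfl

omit [Γ.FiniteIndex] in
theorem conjF_eq_smul (q : SL(2, ℤ) ⧸ Γ) : ∃ σ : SL(2, ℤ), ∀ τ,
    (conjF hu q : ℍ → ℂ) τ = u (σ • τ) := by
  induction q using QuotientGroup.induction_on with
  | H g => exact ⟨g⁻¹, fun τ => conjF_mk hu g τ⟩

theorem esymmF_bound {c : ℕ} (hc : GB c u) (k : ℕ) :
    IsBoundedAtImInfty (fun τ => (esymmF hu k : ℍ → ℂ) τ * discriminant τ ^ (c * k)) := by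
  have h1 : (fun τ => (esymmF hu k : ℍ → ℂ) τ * discriminant τ ^ (c * k)) = fun τ =>
      ∑ t ∈ Finset.powersetCard k (Finset.univ : Finset (SL(2, ℤ) ⧸ Γ)),
        ∏ q ∈ t, ((conjF hu q : ℍ → ℂ) τ * discriminant τ ^ c) := by
    funext τ
    rw [esymmF_apply, Finset.sum_mul]
    refine Finset.sum_congr rfl fun t ht => ?_
    rw [Finset.prod_mul_distrib, Finset.prod_const, (Finset.mem_powersetCard.mp ht).2, ← pow_mul]
  rw [h1]
  refine isBoundedAtImInfty_sum _ fun t _ => isBoundedAtImInfty_prod _ fun q _ => ?_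
  obtain ⟨σ, hσ⟩ := conjF_eq_smul hu q
  simp only [hσ]
  exact hc σ

theorem esymmF_poly {c : ℕ} (hc : GB c u) (k : ℕ) :
    ∃ P : ℂ[X], P.natDegree ≤ c * k ∧ ∀ τ, (esymmF hu k : ℍ → ℂ) τ = P.eval (jFun τ) :=
  exists_polynomial_of_invariant (c * k) _ (polInf_mdiff _) (esymmF_smul hu k)
    (esymmF_bound hu hc k)

theorem sum_esymmF (τ : ℍ) :
    ∑ k ∈ Finset.range (Fintype.card (SL(2, ℤ) ⧸ Γ) + 1), (-1) ^ k * (esymmF hu k : ℍ → ℂ) τ *
      u τ ^ (Fintype.card (SL(2, ℤ) ⧸ Γ) - k) = 0 := by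
  classical
  have h1 := Multiset.prod_X_sub_X_eq_sum_esymm
      ((Finset.univ : Finset (SL(2, ℤ) ⧸ Γ)).val.map (fun q => (conjF hu q : ℍ → ℂ) τ))
  have h2 := congrArg (Polynomial.eval (u τ)) h1
  rw [Multiset.card_map, Finset.card_val, Finset.card_univ, Polynomial.eval_finsetSum] at h2
  have h3 : Polynomial.eval (u τ) (((Finset.univ : Finset (SL(2, ℤ) ⧸ Γ)).val.map
      (fun q => (conjF hu q : ℍ → ℂ) τ)).map (fun t => Polynomial.X - Polynomial.C t)).prod = 0 := by
    rw [Multiset.map_map, Polynomial.eval_multiset_prod, Multiset.prod_eq_zero]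
    rw [Multiset.mem_map]
    refine ⟨Polynomial.X - Polynomial.C ((conjF hu ((1 : SL(2, ℤ)) : SL(2, ℤ) ⧸ Γ) : ℍ → ℂ) τ),
      ?_, ?_⟩
    · rw [Multiset.mem_map]
      exact ⟨((1 : SL(2, ℤ)) : SL(2, ℤ) ⧸ Γ), Finset.mem_val.mpr (Finset.mem_univ _), rfl⟩
    · rw [conjF_one]; simp
  rw [h3] at h2
  rw [h2]
  refine Finset.sum_congr rfl fun k _ => ?_
  rw [Polynomial.eval_mul, Polynomial.eval_mul, Polynomial.eval_pow, Polynomial.eval_pow,
    Polynomial.eval_C, Polynomial.eval_X, Polynomial.eval_neg, Polynomial.eval_one,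
    esymmF_apply, Finset.esymm_map_val, mul_assoc]

end Esymm

section Descent

variable {K : Type*} [Field K]

theorem exists_retraction {L : Type*} [Field L] [Algebra K L] : ∃ π : L →ₗ[K] K, π 1 = 1 := by
  obtain ⟨π, hπ⟩ := LinearMap.exists_leftInverse_of_injective (Algebra.linearMap K L)
    (LinearMap.ker_eq_bot.mpr (algebraMap K L).injective)
  refine ⟨π, ?_⟩
  have := DFunLike.congr_fun hπ 1
  simpa using this

section PolMap

variable {L : Type*} [Field L] [Algebra K L] (π : L →ₗ[K] K)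

/-- Apply a linear functional to all coefficients of a polynomial. -/
def polMap (Q : L[X]) : K[X] := ∑ i ∈ Finset.range (Q.natDegree + 1), Polynomial.monomial i
  (π (Q.coeff i))

theorem polMap_coeff (Q : L[X]) (i : ℕ) : (polMap π Q).coeff i = π (Q.coeff i) := by
  rw [polMap, Polynomial.finsetSum_coeff]
  simp only [Polynomial.coeff_monomial]
  rw [Finset.sum_ite_eq']
  split_ifs with h
  · rfl
  · rw [Polynomial.coeff_eq_zero_of_natDegree_lt, map_zero]
    rw [Finset.mem_range] at h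
    omega

theorem polMap_add (P Q : L[X]) : polMap π (P + Q) = polMap π P + polMap π Q := by
  ext i; simp [polMap_coeff]

theorem polMap_monomial (i : ℕ) (a : L) :
    polMap π (Polynomial.monomial i a) = Polynomial.monomial i (π a) := by
  ext k
  rw [polMap_coeff, Polynomial.coeff_monomial, Polynomial.coeff_monomial]
  split_ifs <;> simp

theorem natDegree_polMap_le (Q : L[X]) : (polMap π Q).natDegree ≤ Q.natDegree := by
  rw [Polynomial.natDegree_le_iff_coeff_eq_zero]
  intro i hi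
  rw [polMap_coeff, Polynomial.coeff_eq_zero_of_natDegree_lt hi, map_zero]

theorem mapFun_aeval_mul (Q : L[X]) (y : LaurentSeries K) :
    mapFun π (Polynomial.aeval (jqModC L) Q * coeffMap (algebraMap K L) y) =
      Polynomial.aeval (jqModC K) (polMap π Q) * y := by
  induction Q using Polynomial.induction_on' with
  | add P Q hP hQ => rw [map_add, add_mul, mapFun_add, hP, hQ, polMap_add, map_add, add_mul]
  | monomial i a =>
    rw [polMap_monomial, Polynomial.aeval_monomial, Polynomial.aeval_monomial]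
    have h1 : algebraMap L (LaurentSeries L) a * jqModC L ^ i * coeffMap (algebraMap K L) y =
        coeffMap (algebraMap K L) (jqModC K ^ i * y) * algebraMap L (LaurentSeries L) a := by
      rw [map_mul, map_pow, coeffMap_jqModC]; ring
    rw [h1, mapFun_mul]
    have h2 : mapFun π (algebraMap L (LaurentSeries L) a) =
        algebraMap K (LaurentSeries K) (π a) := by
      ext n
      rw [mapFun_coeff, algebraMap_laurentSeries_eq_single, algebraMap_laurentSeries_eq_single,
        HahnSeries.coeff_single, HahnSeries.coeff_single]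
      split_ifs <;> simp
    rw [h2]; ring

end PolMap

/-- The monic equation over `K[j]` with degree bounds. -/
theorem exists_monic_bound {Γ : Subgroup SL(2, ℤ)} [Γ.FiniteIndex] (ι : K →+* ℂ) {u : ℍ → ℂ}
    (hu : IsModFun Γ u) {c : ℕ} (hc : GB c u) {G : LaurentSeries K}
    (hG : LExp 1 u (coeffMap ι G)) :
    ∃ (n : ℕ) (P : ℕ → K[X]), 0 < n ∧ P 0 = 1 ∧ (∀ k, (P k).natDegree ≤ c * k) ∧
      ∑ k ∈ Finset.range (n + 1), Polynomial.aeval (jqModC K) (P k) * G ^ (n - k) = 0 := by
  classical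
  let _ := ι.toAlgebra
  have hι : algebraMap K ℂ = ι := rfl
  obtain ⟨π, hπ⟩ := exists_retraction (K := K) (L := ℂ)
  set n := Fintype.card (SL(2, ℤ) ⧸ Γ) with hn
  choose P hPd hP using esymmF_poly hu hc
  -- relation over `ℂ`
  have h1 : ∀ k, LExp 1 (fun τ => (-1) ^ k * (esymmF hu k : ℍ → ℂ) τ * u τ ^ (n - k))
      (Polynomial.aeval (jqModC ℂ) (Polynomial.C ((-1) ^ k) * P k) * coeffMap ι G ^ (n - k)) := by
    intro k
    have h2 := lexp_eval lexp_j (Polynomial.C ((-1 : ℂ) ^ k) * P k)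
    have h3 := lexp_pow hG (n - k)
    convert! h2.mul h3 using 1
    funext τ
    simp only [Polynomial.eval_mul, Polynomial.eval_C, Pi.mul_apply, Pi.pow_apply, hP]
  have h2 := lexp_sum (Finset.range (n + 1))
    (f := fun k τ => (-1) ^ k * (esymmF hu k : ℍ → ℂ) τ * u τ ^ (n - k))
    (F := fun k => Polynomial.aeval (jqModC ℂ) (Polynomial.C ((-1) ^ k) * P k) *
      coeffMap ι G ^ (n - k))
    fun k _ => h1 k
  have h3 : (∑ k ∈ Finset.range (n + 1), fun τ => (-1) ^ k * (esymmF hu k : ℍ → ℂ) τ *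
      u τ ^ (n - k)) = 0 := by
    funext τ
    rw [Finset.sum_apply]
    exact sum_esymmF hu τ
  rw [h3] at h2
  have h4 := h2.unique one_pos (LExp.zero 1)
  -- descent
  refine ⟨n, fun k => polMap π (Polynomial.C ((-1) ^ k) * P k), Fintype.card_pos, ?_, ?_, ?_⟩
  · have hP0 : P 0 = 1 := by
      refine Polynomial.funext fun x => ?_
      obtain ⟨τ, rfl⟩ := jFun_surjective x
      rw [← hP, esymmF_apply]
      simp
    have h5 : Polynomial.C ((-1 : ℂ) ^ 0) * P 0 = Polynomial.monomial 0 1 := by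
      rw [hP0]; simp
    change polMap π (Polynomial.C ((-1 : ℂ) ^ 0) * P 0) = 1
    rw [h5, polMap_monomial, hπ]; simp
  · intro k
    refine (natDegree_polMap_le _ _).trans ((Polynomial.natDegree_C_mul_le _ _).trans (hPd k))
  · have h5 := congrArg (mapFun π) h4
    have h6 : ∀ (s : Finset ℕ) (f : ℕ → LaurentSeries ℂ),
        mapFun π (∑ i ∈ s, f i) = ∑ i ∈ s, mapFun π (f i) := by
      intro s f
      induction s using Finset.induction_on with
      | empty => ext n; simp
      | insert a s ha ih => rw [Finset.sum_insert ha, Finset.sum_insert ha, mapFun_add, ih]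
    rw [h6] at h5
    have h7 : mapFun π (0 : LaurentSeries ℂ) = 0 := by ext n; simp
    rw [h7] at h5
    rw [← h5]
    refine Finset.sum_congr rfl fun k _ => ?_
    rw [← map_pow, ← mapFun_aeval_mul]
    rfl

end Descent

end Fermat.Agent.TriGauss
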