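import Mathlib
import Fermat.Agent.TwoGauss.AtkinLehner

/-!
# Embeddings of the function field of `X₀(N)` given by substitutions of the upper half plane
-/

set_option autoImplicit false

open UpperHalfPlane Complex Function ModularCurve MatrixGroups IntermediateField
open Fermat.Agent.X0Emb Fermat.Agent.JLevelOne Fermat.Agent.TwoGauss
open scoped IntermediateField.algebraAdjoinAdjoin

noncomputable section

namespace Fermat.Agent.TriGauss

/-- algebra homomorphisms out of the field generated by `x i` are given by families with the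
same algebraic relations. -/
theorem exists_algHom_adjoin {K L E ι : Type*} [Field K] [Field L] [Algebra K L] [Field E]
    [Algebra K E] (x : ι → L) (y : ι → E)
    (h : ∀ P : MvPolynomial ι K, MvPolynomial.aeval x P = 0 ↔ MvPolynomial.aeval y P = 0)
    (F : IntermediateField K L) (hF : F = adjoin K (Set.range x)) (hx : ∀ i, x i ∈ F) :
    ∃ w : F →ₐ[K] E, ∀ i, w ⟨x i, hx i⟩ = y i := by
  classical
  subst hF
  have hR : Algebra.adjoin K (Set.range x) =
      (MvPolynomial.aeval x : MvPolynomial ι K →ₐ[K] L).range :=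
    Algebra.adjoin_range_eq_range_aeval K x
  let φ : MvPolynomial ι K →ₐ[K] Algebra.adjoin K (Set.range x) :=
    (MvPolynomial.aeval x : MvPolynomial ι K →ₐ[K] L).codRestrict _
      (fun P => by rw [hR]; exact ⟨P, rfl⟩)
  have hφ : ∀ P, ((φ P : Algebra.adjoin K (Set.range x)) : L) = MvPolynomial.aeval x P :=
    fun P => rfl
  have hsurj : Function.Surjective φ := by
    rintro ⟨z, hz⟩
    have hz' := hz
    rw [hR] at hz'
    obtain ⟨P, hP⟩ := hz'
    exact ⟨P, Subtype.ext hP⟩
  let g : MvPolynomial ι K →ₐ[K] E := MvPolynomial.aeval y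
  have hker : RingHom.ker φ ≤ RingHom.ker g := by
    intro P hP
    rw [RingHom.mem_ker] at hP ⊢
    exact (h P).mp (by rw [← hφ, hP]; rfl)
  let ψ : Algebra.adjoin K (Set.range x) →ₐ[K] E := AlgHom.liftOfSurjective φ hsurj g hker
  have hψ : ∀ P, ψ (φ P) = g P := fun P => AlgHom.liftOfSurjective_apply φ hsurj g hker P
  have hinj : Function.Injective ψ := by
    rw [injective_iff_map_eq_zero]
    intro a ha
    obtain ⟨P, rfl⟩ := hsurj a
    rw [hψ] at ha
    exact Subtype.ext ((h P).mpr ha)
  let w : (adjoin K (Set.range x)) →ₐ[K] E :=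
    IsFractionRing.liftAlgHom (K := adjoin K (Set.range x)) (A := Algebra.adjoin K (Set.range x))
      (g := ψ) hinj
  have hw : ∀ a : Algebra.adjoin K (Set.range x),
      w (algebraMap (Algebra.adjoin K (Set.range x)) (adjoin K (Set.range x)) a) = ψ a :=
    fun a => IsFractionRing.lift_algebraMap (K := adjoin K (Set.range x)) hinj a
  refine ⟨w, fun i => ?_⟩
  have h1 : (⟨x i, hx i⟩ : adjoin K (Set.range x)) =
      algebraMap (Algebra.adjoin K (Set.range x)) (adjoin K (Set.range x))
        (φ (MvPolynomial.X i)) := by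
    apply Subtype.ext
    change x i = ((φ (MvPolynomial.X i) : Algebra.adjoin K (Set.range x)) : L)
    rw [hφ, MvPolynomial.aeval_X]
  rw [h1, hw, hψ]
  simp [g]

section Rel

variable {N : ℕ} [NeZero N]

theorem lexp_aeval {h : ℝ} (φ : ℍ → ℍ) (S : Dv N → LaurentSeries ℂ)
    (hS : ∀ d : Dv N, LExp h (fun τ => jFun (aff d.1 0 1 (φ τ))) (S d))
    (P : MvPolynomial (Dv N) ℂ) :
    LExp h (fun τ => evFun P (φ τ)) (MvPolynomial.aeval S P) := by
  induction P using MvPolynomial.induction_on with
  | C a =>
    have h1 := LExp.const h a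
    have h2 : (algebraMap ℂ (LaurentSeries ℂ)) a = HahnSeries.C a := by
      rw [algebraMap_laurentSeries_eq_single]; rfl
    simpa [h2, evFun] using h1
  | add P Q hP hQ =>
    have h1 := hP.add hQ
    simp only [evFun, map_add] at h1 ⊢
    exact h1
  | mul_X P d hP =>
    have h1 := hP.mul (hS d)
    simp only [evFun, map_mul, MvPolynomial.aeval_X] at h1 ⊢
    exact h1

/-- A surjective substitution of the upper half plane preserves and reflects relations. -/
theorem relation_iff_complex {h : ℝ} (hh : 0 < h) (φ : ℍ → ℍ) (hφ : Function.Surjective φ)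
    (S : Dv N → LaurentSeries ℂ)
    (hS : ∀ d : Dv N, LExp h (fun τ => jFun (aff d.1 0 1 (φ τ))) (S d))
    (P : MvPolynomial (Dv N) ℂ) :
    MvPolynomial.aeval (fun d : Dv N => jd ℂ d.1) P = 0 ↔ MvPolynomial.aeval S P = 0 := by
  have h1 := lexp_aeval id (fun d : Dv N => jd ℂ d.1) (fun d => lexp_jd d.1) P
  have h2 := lexp_aeval φ S hS P
  constructor
  · intro h0
    rw [h0] at h1
    have h3 : (fun τ => evFun P (id τ)) = 0 := h1.funext (LExp.zero 1)
    have h4 : (fun τ => evFun P (φ τ)) = 0 := by
      funext τ; exact congrFun h3 (φ τ)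
    rw [h4] at h2
    exact h2.eq_zero hh
  · intro h0
    rw [h0] at h2
    have h3 : (fun τ => evFun P (φ τ)) = 0 := h2.funext (LExp.zero h)
    have h4 : (fun τ => evFun P (id τ)) = 0 := by
      funext τ
      obtain ⟨τ', rfl⟩ := hφ τ
      exact congrFun h3 τ'
    rw [h4] at h1
    exact h1.eq_zero one_pos

theorem coeffMap_injective' {K : Type*} [Field K] (ι : K →+* ℂ) :
    Function.Injective (coeffMap ι : LaurentSeries K →+* LaurentSeries ℂ) := by
  intro a b hab
  ext n
  apply ι.injective
  rw [← coeffMap_coeff, ← coeffMap_coeff, hab]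

theorem coeffMap_aeval {K : Type*} [Field K] (ι : K →+* ℂ) (S : Dv N → LaurentSeries K)
    (P : MvPolynomial (Dv N) K) :
    coeffMap ι (MvPolynomial.aeval S P) =
      MvPolynomial.aeval (fun d => coeffMap ι (S d)) (MvPolynomial.map ι P) := by
  induction P using MvPolynomial.induction_on with
  | C a =>
    simp only [MvPolynomial.map_C, MvPolynomial.aeval_C]
    rw [algebraMap_laurentSeries_eq_single, algebraMap_laurentSeries_eq_single, coeffMap_single]
  | add P Q hP hQ => simp only [map_add, hP, hQ]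
  | mul_X P d hP =>
    simp only [map_mul, hP, MvPolynomial.aeval_X, MvPolynomial.map_X]

theorem relation_iff {K : Type*} [Field K] (ι : K →+* ℂ) {h : ℝ} (hh : 0 < h) (φ : ℍ → ℍ)
    (hφ : Function.Surjective φ) (S : Dv N → LaurentSeries K)
    (hS : ∀ d : Dv N, LExp h (fun τ => jFun (aff d.1 0 1 (φ τ))) (coeffMap ι (S d)))
    (P : MvPolynomial (Dv N) K) :
    MvPolynomial.aeval (fun d : Dv N => jd K d.1) P = 0 ↔ MvPolynomial.aeval S P = 0 := by
  rw [← map_eq_zero_iff _ (coeffMap_injective' ι), ← map_eq_zero_iff _ (coeffMap_injective' ι),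
    coeffMap_aeval, coeffMap_aeval]
  simp only [coeffMap_jd]
  exact relation_iff_complex hh φ hφ _ hS _

/-- The embedding of the function field attached to a substitution of the upper half plane. -/
theorem exists_algHom_FB {K : Type*} [Field K] [Algebra ℚ K] (ι : K →+* ℂ) {h : ℝ} (hh : 0 < h)
    (φ : ℍ → ℍ) (hφ : Function.Surjective φ) (S : Dv N → LaurentSeries K)
    (hS : ∀ d : Dv N, LExp h (fun τ => jFun (aff d.1 0 1 (φ τ))) (coeffMap ι (S d))) :
    ∃ w : FB K N →ₐ[K] LaurentSeries K, ∀ d, w (jdB K N d) = S d :=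
  exists_algHom_adjoin (fun d : Dv N => jd K d.1) S (relation_iff ι hh φ hφ S hS) (FB K N)
    (FB_eq_adjoin_range K N) (fun d => jd_mem K N d.2)

end Rel

end Fermat.Agent.TriGauss
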