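import Mathlib
import Fermat.Agent.TriGauss.Emb

/-!
# The expansion of the function field of `X₀(q² m)` at the cusp `1/(qm)`
-/

set_option autoImplicit false

open UpperHalfPlane Complex Function ModularCurve MatrixGroups IntermediateField
open Fermat.Agent.X0Emb Fermat.Agent.JLevelOne Fermat.Agent.TwoGauss

noncomputable section

namespace Fermat.Agent.TriGauss

variable {q m : ℕ}

theorem dvd_mq_of_not_sq_dvd (hq : q.Prime) {d : ℕ} (h : ¬ q * q ∣ d)
    (hd : d ∣ m * q * q) : d ∣ m * q := by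
  by_cases h1 : q ∣ d
  · obtain ⟨e, rfl⟩ := h1
    have h2 : ¬ q ∣ e := fun h3 => h (mul_dvd_mul_left q h3)
    have h4 : e ∣ m * q := by
      rw [mul_comm (m * q) q] at hd
      exact Nat.dvd_of_mul_dvd_mul_left hq.pos hd
    rw [mul_comm m q]
    exact mul_dvd_mul_left q (Nat.Coprime.dvd_of_dvd_mul_right
      ((Nat.Prime.coprime_iff_not_dvd hq).mpr h2).symm h4)
  · exact Nat.Coprime.dvd_of_dvd_mul_right ((Nat.Prime.coprime_iff_not_dvd hq).mpr h1).symm hd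

theorem dvd_m_of_sq_mul (hq : q.Prime) {d : ℕ} (hd : q * q * d ∣ m * q * q) : d ∣ m := by
  have h : m * q * q = q * q * m := by ring
  rw [h] at hd
  exact Nat.dvd_of_mul_dvd_mul_left (Nat.mul_pos hq.pos hq.pos) hd

/-- the involution `d ↦ d^{*}` : the exact divisor `q²` -/
theorem sq_mul_dvd {d : ℕ} (hd : d ∣ m) : q * q * d ∣ m * q * q := by
  have h : m * q * q = q * q * m := by ring
  rw [h]; exact mul_dvd_mul_left _ hd

section Series

variable [NeZero (m * q * q)] {R : Type*} [CommRing R]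

theorem neZero_div (d : Dv (m * q * q)) (h : q * q ∣ d.1) : NeZero (d.1 / (q * q)) := by
  refine ⟨fun h0 => ?_⟩
  obtain ⟨e, he⟩ := h
  have hd := (Dv.neZero d).ne
  have hq : 0 < q * q := by
    rcases Nat.eq_zero_or_pos (q * q) with h1 | h1
    · rw [h1, zero_mul] at he; exact absurd he hd
    · exact h1
  rw [he, Nat.mul_div_cancel_left _ hq] at h0
  rw [h0, mul_zero] at he
  exact hd he

/-- the expansion of `j_d` at the cusp `1/(qm)` -/
def S1 (ζ : Rˣ) (d : Dv (m * q * q)) : LaurentSeries R :=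
  if h : q * q ∣ d.1 then
    have := neZero_div d h
    twist ζ (jd R (d.1 / (q * q)))
  else jd R d.1

theorem S1_of_dvd_mq (hq : q.Prime) (hm : ¬ q ∣ m) (ζ : Rˣ) (d : Dv (m * q * q))
    (hd : d.1 ∣ m * q) : S1 ζ d = jd R d.1 := by
  rw [S1, dif_neg]
  intro h
  apply hm
  have h1 : q * q ∣ q * m := by rw [mul_comm q m]; exact h.trans hd
  exact Nat.dvd_of_mul_dvd_mul_left hq.pos h1

theorem jd_congr {a b : ℕ} [NeZero a] [NeZero b] (h : a = b) : jd R a = jd R b := by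
  subst h; rfl

theorem S1_sq_mul (hq : q.Prime) (ζ : Rˣ) (e : ℕ) [NeZero e] (he : q * q * e ∣ m * q * q) :
    S1 ζ (⟨q * q * e, he⟩ : Dv (m * q * q)) = twist ζ (jd R e) := by
  have h : q * q ∣ (⟨q * q * e, he⟩ : Dv (m * q * q)).1 := dvd_mul_right _ _
  have hn := neZero_div (⟨q * q * e, he⟩ : Dv (m * q * q)) h
  rw [S1, dif_pos h]
  exact congrArg (twist ζ)
    (jd_congr (R := R) (Nat.mul_div_cancel_left e (Nat.mul_pos hq.pos hq.pos)))

theorem coeffMap_S1 {S : Type*} [CommRing S] (f : R →+* S) (ζ : Rˣ) (d : Dv (m * q * q)) :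
    coeffMap f (S1 ζ d) = S1 (Units.map f ζ) d := by
  rw [S1, S1]
  split_ifs with h
  · have := neZero_div d h
    rw [twist_coeffMap, coeffMap_jd]
  · rw [coeffMap_jd]

/-- `qExpand` and `twist` -/
theorem twist_qExpand (c : Rˣ) (e : ℕ) [NeZero e] (G : LaurentSeries R) :
    twist c (qExpand R e G) = qExpand R e (twist (c ^ e) G) := by
  ext n
  by_cases h : (e : ℤ) ∣ n
  · obtain ⟨k, rfl⟩ := h
    rw [twist_coeff, qExpand_coeff_mul, qExpand_coeff_mul, twist_coeff, zpow_mul, zpow_natCast]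
  · rw [twist_coeff, qExpand_coeff_of_not_dvd _ _ h, qExpand_coeff_of_not_dvd _ _ h, mul_zero]

end Series

/-! ### The substitution -/

section Subst

theorem aff_lower (c : ℤ) (d : ℕ) [NeZero d] (c' : ℤ) (hc : c = d * c') (τ : ℍ) :
    aff d 0 1 (mk2 1 0 c 1 (by ring) • τ) = mk2 1 0 c' 1 (by ring) • aff d 0 1 τ := by
  apply UpperHalfPlane.ext
  rw [coe_mk2_smul, coe_aff, coe_mk2_smul, coe_aff]
  have h1 := mk2_denom_ne 1 0 c 1 (by ring) τ
  have h2 : (c : ℂ) = d * c' := by exact_mod_cast hc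
  rw [h2] at h1 ⊢
  have h3 : (c' : ℂ) * (((d : ℂ) * τ + (0 : ℕ)) / (1 : ℕ)) + 1 ≠ 0 := by
    intro h4; apply h1; push_cast at h4 ⊢; linear_combination h4
  push_cast at h1 h3 ⊢
  field_simp at h1 h3 ⊢
  ring_nf

theorem jFun_aff_lower (c : ℤ) (d : ℕ) [NeZero d] (hc : (d : ℤ) ∣ c) (τ : ℍ) :
    jFun (aff d 0 1 (mk2 1 0 c 1 (by ring) • τ)) = jFun (aff d 0 1 τ) := by
  obtain ⟨c', hc'⟩ := hc
  rw [aff_lower c d c' hc', jFun_smul]

/-- `q² e γ τ = g' (q e τ + b'')/q`  for `γ = [1 0; q m b 1]`, `m = e m'`. -/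
theorem aff_sq_lower [NeZero q] (b m' : ℤ) (e v : ℕ) [NeZero e]
    [NeZero (q * q * e)] [NeZero (q * e)] (w : ℤ) (hw : m' * b * v + q * w = 1) (τ : ℍ) :
    aff (q * q * e) 0 1 (mk2 1 0 (q * (e * m') * b) 1 (by ring) • τ) =
      mk2 q (-v) (m' * b) w (by linear_combination hw) • aff (q * e) v q τ := by
  apply UpperHalfPlane.ext
  rw [coe_mk2_smul, coe_aff, coe_mk2_smul, coe_aff]
  have h1 := mk2_denom_ne 1 0 (q * (e * m') * b) 1 (by ring) τ
  have h2 := mk2_denom_ne q (-v) (m' * b) w (by linear_combination hw) (aff (q * e) v q τ)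
  rw [coe_aff] at h2
  have hq0 : (q : ℂ) ≠ 0 := by exact_mod_cast NeZero.ne q
  have hw' : (m' : ℂ) * b * v + q * w = 1 := by exact_mod_cast hw
  push_cast at h1 h2 ⊢
  have h3 : (m' : ℂ) * b * ((q * e * τ + v) / q) + w = ((q * (e * m') * b) * τ + 1) / q := by
    field_simp
    linear_combination hw'
  rw [h3]
  field_simp
  ring_nf

theorem jFun_aff_sq_lower [NeZero q] (b m' : ℤ) (e v : ℕ) [NeZero e]
    [NeZero (q * q * e)] [NeZero (q * e)] (w : ℤ) (hw : m' * b * v + q * w = 1) (c : ℤ)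
    (hc : c = q * (e * m') * b) (τ : ℍ) :
    jFun (aff (q * q * e) 0 1 (mk2 1 0 c 1 (by ring) • τ)) =
      jFun (aff (q * e) v q τ) := by
  subst hc
  rw [aff_sq_lower b m' e v w hw, jFun_smul]

/-- `exp (2 π i u / q)` -/
theorem zetaU_mul (u q e : ℕ) : zetaU (u * e) q = zetaU u q ^ e := by
  apply Units.ext
  rw [Units.val_pow_eq_pow_val, zetaU, zetaU, Units.val_mk0, Units.val_mk0, ← Complex.exp_nat_mul]
  congr 1
  push_cast
  ring

theorem lexp_aff_sq [NeZero q] (e u : ℕ) [NeZero e] [NeZero (q * e)] :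
    LExp 1 (fun τ => jFun (aff (q * e) (u * e) q τ)) (twist (zetaU u q) (jd ℂ e)) := by
  have h := LExp.aff lexp_jFun (q * e) (u * e) q e 1 (by ring)
  rw [zetaU_mul] at h
  rw [jd, twist_qExpand]
  simpa using h

variable [NeZero (m * q * q)]

theorem lexp_S1 (hq : q.Prime) (hm : ¬ q ∣ m) (b : ℤ) (u : ℕ) (w : ℤ)
    (hb : (m : ℤ) * b * u + q * w = 1) (d : Dv (m * q * q)) :
    LExp 1 (fun τ => jFun (aff d.1 0 1 (mk2 1 0 (q * m * b) 1 (by ring) • τ)))
      (S1 (zetaU u q) d) := by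
  obtain ⟨d, hd⟩ := d
  have : NeZero q := ⟨hq.ne_zero⟩
  by_cases h : q * q ∣ d
  · obtain ⟨e, rfl⟩ := h
    have he : e ∣ m := dvd_m_of_sq_mul hq hd
    have : NeZero e := ⟨fun h0 => by
      have := (Dv.neZero (N := m * q * q) ⟨q * q * e, hd⟩).ne
      exact this (by simp [h0])⟩
    have : NeZero (q * q * e) := Dv.neZero (N := m * q * q) ⟨q * q * e, hd⟩
    have : NeZero (q * e) := ⟨Nat.mul_ne_zero hq.ne_zero (NeZero.ne e)⟩
    rw [S1_sq_mul hq]
    obtain ⟨m', hm'⟩ := he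
    have h1 := lexp_aff_sq (q := q) e u
    have h3 : (fun τ => jFun (aff (q * q * e) 0 1 (mk2 1 0 (q * m * b) 1 (by ring) • τ))) =
        (fun τ => jFun (aff (q * e) (u * e) q τ)) := funext fun τ =>
      jFun_aff_sq_lower (q := q) b m' e (u * e) w (by
        rw [hm'] at hb; push_cast at hb ⊢; linear_combination hb) _
        (by rw [hm']; push_cast; ring) τ
    rw [h3]
    exact h1
  · have hd' : d ∣ m * q := dvd_mq_of_not_sq_dvd hq h hd
    rw [S1_of_dvd_mq hq hm _ ⟨d, hd⟩ hd']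
    have : NeZero d := Dv.neZero (N := m * q * q) ⟨d, hd⟩
    have h1 := lexp_jd d
    have h5 : (fun τ => jFun (aff d 0 1 (mk2 1 0 (q * m * b) 1 (by ring) • τ))) =
        (fun τ => jFun (aff d 0 1 τ)) := funext fun τ =>
      jFun_aff_lower _ d (by
        have h3 : (d : ℤ) ∣ ((m * q : ℕ) : ℤ) := by exact_mod_cast hd'
        have h4 : ((q : ℤ) * m * b) = ((m * q : ℕ) : ℤ) * b := by push_cast; ring
        rw [h4]
        exact h3.mul_right _) τ
    rw [h5]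
    exact h1

omit [NeZero (m * q * q)] in
theorem exists_bezout_sub (hq : q.Prime) (hm : ¬ q ∣ m) {u : ℕ} (hu : u.Coprime q) :
    ∃ b w : ℤ, (m : ℤ) * b * u + q * w = 1 := by
  have h : IsCoprime ((m * u : ℕ) : ℤ) (q : ℤ) := by
    rw [Nat.isCoprime_iff_coprime]
    exact Nat.Coprime.mul_left ((Nat.Prime.coprime_iff_not_dvd hq).mpr hm).symm hu
  obtain ⟨a, b, hab⟩ := h
  exact ⟨a, b, by push_cast at hab; linear_combination hab⟩

theorem exists_zetaU (hq : q.Prime) {ζ : ℂˣ} (hζ : IsPrimitiveRoot ζ q) :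
    ∃ u : ℕ, u.Coprime q ∧ zetaU u q = ζ := by
  have h1 : IsPrimitiveRoot (ζ : ℂ) q := IsPrimitiveRoot.coe_units_iff.mpr hζ
  obtain ⟨i, _, hi, h2⟩ := (Complex.isPrimitiveRoot_iff _ _ hq.ne_zero).mp h1
  refine ⟨i, hi, Units.ext ?_⟩
  rw [← h2, zetaU, Units.val_mk0]
  congr 1
  ring

theorem smul_surjective (g : SL(2, ℤ)) : Function.Surjective (fun τ : ℍ => g • τ) :=
  fun τ => ⟨g⁻¹ • τ, smul_inv_smul g τ⟩

theorem lexp_coeffMap_S1 {K : Type*} [Field K] (ι : K →+* ℂ) (hq : q.Prime)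
    (hm : ¬ q ∣ m) (ζ : Kˣ) (b : ℤ) (u : ℕ) (w : ℤ) (hb : (m : ℤ) * b * u + q * w = 1)
    (h2 : zetaU u q = Units.map (ι : K →* ℂ) ζ) (d : Dv (m * q * q)) :
    LExp 1 (fun τ => jFun (aff d.1 0 1 (mk2 1 0 (q * m * b) 1 (by ring) • τ)))
      (coeffMap ι (S1 ζ d)) := by
  rw [coeffMap_S1, ← h2]
  exact lexp_S1 hq hm b u w hb d

theorem exists_e1 {K : Type*} [Field K] [Algebra ℚ K] (ι : K →+* ℂ) (hq : q.Prime)
    (hm : ¬ q ∣ m) (ζ : Kˣ) (hζ : IsPrimitiveRoot ζ q) :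
    ∃ e : FB K (m * q * q) →ₐ[K] LaurentSeries K, ∀ d, e (jdB K _ d) = S1 ζ d := by
  have h1 : IsPrimitiveRoot (Units.map (ι : K →* ℂ) ζ) q := by
    refine hζ.map_of_injective ?_
    exact Units.map_injective ι.injective
  obtain ⟨u, hu, h2⟩ := exists_zetaU hq h1
  obtain ⟨b, w, hb⟩ := exists_bezout_sub hq hm hu
  have h3 := lexp_coeffMap_S1 ι hq hm ζ b u w hb h2
  exact exists_algHom_FB ι one_pos _ (smul_surjective (mk2 1 0 (q * m * b) 1 (by ring)))
    (S1 ζ) h3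

end Subst

end Fermat.Agent.TriGauss
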