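import Mathlib
import Fermat.Agent.TriGauss.E1

/-!
# The Atkin--Lehner involution `w_Q` for an exact divisor `Q` of the level `N = m Q`
-/

set_option autoImplicit false

open UpperHalfPlane Complex Function ModularCurve MatrixGroups IntermediateField
open Fermat.Agent.X0Emb Fermat.Agent.JLevelOne Fermat.Agent.TwoGauss

noncomputable section

namespace Fermat.Agent.TriGauss

section SwapQ

variable {N Q m : ℕ}

/-- the swap `d₁ d₂ ↦ (Q/d₁) d₂` (`d₁ ∣ Q`, `d₂ ∣ m`) of divisors of `N = m Q` -/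
def swapQ (N Q m : ℕ) (hN : N = m * Q) (hQ : Q ≠ 0) (hc : Q.Coprime m) (d : Dv N) : Dv N :=
  ⟨(Q / Nat.gcd d.1 Q) * (d.1 / Nat.gcd d.1 Q), by
    obtain ⟨d, hd⟩ := d
    rw [hN] at hd
    obtain ⟨a, b, ha, hb, rfl⟩ := Nat.dvd_mul.mp hd
    have hc1 : Nat.gcd (a * b) Q = b := by
      rw [mul_comm, Nat.Coprime.gcd_mul_right_cancel _ (Nat.Coprime.coprime_dvd_left ha hc.symm),
        Nat.gcd_eq_left hb]
    have hb0 : 0 < b := Nat.pos_of_ne_zero (fun h => hQ (Nat.eq_zero_of_zero_dvd (h ▸ hb)))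
    change (Q / Nat.gcd (a * b) Q) * (a * b / Nat.gcd (a * b) Q) ∣ N
    rw [hc1, Nat.mul_div_cancel _ hb0, hN, mul_comm m Q]
    exact mul_dvd_mul (Nat.div_dvd_of_dvd hb) ha⟩

theorem swapQ_mul (hN : N = m * Q) (hQ : Q ≠ 0) (hc : Q.Coprime m) {a b b' : ℕ} (ha : a ∣ m)
    (hb : b' * b = Q) (h : a * b ∣ N) (h' : a * b' ∣ N) :
    swapQ N Q m hN hQ hc ⟨a * b, h⟩ = ⟨a * b', h'⟩ := by
  have hb1 : b ∣ Q := ⟨b', by rw [← hb, mul_comm]⟩
  have hc1 : Nat.gcd (a * b) Q = b := by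
    rw [mul_comm, Nat.Coprime.gcd_mul_right_cancel _ (Nat.Coprime.coprime_dvd_left ha hc.symm),
      Nat.gcd_eq_left hb1]
  have hb0 : 0 < b := Nat.pos_of_ne_zero (fun h => hQ (Nat.eq_zero_of_zero_dvd (h ▸ hb1)))
  apply Subtype.ext
  change (Q / Nat.gcd (a * b) Q) * (a * b / Nat.gcd (a * b) Q) = a * b'
  rw [hc1, Nat.mul_div_cancel _ hb0, ← hb, Nat.mul_div_cancel _ hb0, mul_comm]

theorem exists_factor (hN : N = m * Q) {d : ℕ} (hd : d ∣ N) :
    ∃ a b b' : ℕ, a ∣ m ∧ b' * b = Q ∧ d = a * b := by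
  rw [hN] at hd
  obtain ⟨a, b, ha, ⟨b', hb⟩, rfl⟩ := Nat.dvd_mul.mp hd
  exact ⟨a, b, b', ha, by rw [hb, mul_comm], rfl⟩

theorem swapQ_swapQ (hN : N = m * Q) (hQ : Q ≠ 0) (hc : Q.Coprime m) (d : Dv N) :
    swapQ N Q m hN hQ hc (swapQ N Q m hN hQ hc d) = d := by
  obtain ⟨d, hd⟩ := d
  obtain ⟨a, b, b', ha, hb, rfl⟩ := exists_factor hN hd
  have h' : a * b' ∣ N := by
    rw [hN]; exact mul_dvd_mul ha ⟨b, hb.symm⟩
  rw [swapQ_mul hN hQ hc ha hb hd h', swapQ_mul hN hQ hc ha (by rw [mul_comm]; exact hb) h' hd]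

end SwapQ

section Subst

variable {N Q m : ℕ}

theorem exists_bezoutQ (hc : Q.Coprime m) : ∃ x y : ℤ, x * Q - y * m = 1 := by
  have h : IsCoprime (Q : ℤ) (m : ℤ) := Nat.isCoprime_iff_coprime.mpr hc
  obtain ⟨a, b, hab⟩ := h
  exact ⟨a, -b, by linear_combination hab⟩

theorem aff_atkWQ (x y : ℤ) [NeZero Q] (h : x * Q - y * m = 1) (a b b' a' : ℕ)
    [NeZero (a * b)] [NeZero (a * b')] (ha : m = a * a') (hb : b' * b = Q) (τ : ℍ) :
    aff (a * b) 0 1 (atkW x y h τ) =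
      mk2 (b * x) (a * y) a' b' (by
        rw [ha, ← hb] at h; push_cast at h; linear_combination h) • aff (a * b') 0 1 τ := by
  apply UpperHalfPlane.ext
  rw [coe_mk2_smul, coe_aff, atkW, coe_mk2_smul, coe_aff, coe_aff]
  have h1 := mk2_denom_ne x y m Q h (aff Q 0 1 τ)
  rw [coe_aff] at h1
  have hb0 : (b : ℂ) ≠ 0 := by
    intro h0
    have : (b : ℕ) = 0 := by exact_mod_cast h0
    exact (NeZero.ne (a * b)) (by rw [this, mul_zero])
  have hb0' : (b' : ℂ) ≠ 0 := by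
    intro h0
    have : (b' : ℕ) = 0 := by exact_mod_cast h0
    exact (NeZero.ne (a * b')) (by rw [this, mul_zero])
  have h2 : (m : ℂ) = a * a' := by exact_mod_cast ha
  have h5 : (Q : ℂ) = b' * b := by exact_mod_cast hb.symm
  push_cast at h1 ⊢
  rw [h2, h5] at h1 ⊢
  have h6 : (a : ℂ) * a' * ((b' * b * τ + 0) / 1) + b' * b = b * (b' * (a * a' * τ + 1)) := by ring
  rw [h6] at h1
  have h7 : (b' : ℂ) * (a * a' * τ + 1) ≠ 0 := fun h0 => h1 (by rw [h0, mul_zero])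
  have h8 : (a : ℂ) * a' * τ + 1 ≠ 0 := fun h0 => h7 (by rw [h0, mul_zero])
  have h9 : (a' : ℂ) * ((a * b' * τ + 0) / 1) + b' = b' * (a * a' * τ + 1) := by ring
  rw [h6, h9]
  field_simp
  ring_nf

theorem jFun_aff_atkWQ (x y : ℤ) [NeZero Q] (h : x * Q - y * m = 1) (a b b' : ℕ)
    [NeZero (a * b)] [NeZero (a * b')] (ha : a ∣ m) (hb : b' * b = Q) (τ : ℍ) :
    jFun (aff (a * b) 0 1 (atkW x y h τ)) = jFun (aff (a * b') 0 1 τ) := by
  obtain ⟨a', ha'⟩ := ha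
  rw [aff_atkWQ x y h a b b' a' ha' hb, jFun_smul]

theorem aff_surjective (Q : ℕ) [NeZero Q] : Function.Surjective (aff Q 0 1) := by
  intro τ
  refine ⟨aff 1 0 Q τ, ?_⟩
  apply UpperHalfPlane.ext
  rw [coe_aff, coe_aff]
  have : (Q : ℂ) ≠ 0 := by exact_mod_cast NeZero.ne Q
  push_cast
  field_simp
  ring

theorem atkW_surjective (x y : ℤ) [NeZero Q] (h : x * Q - y * m = 1) :
    Function.Surjective (atkW x y h) :=
  (smul_surjective _).comp (aff_surjective Q)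

variable [NeZero N]

theorem jFun_aff_swapQ (hN : N = m * Q) (hQ : Q ≠ 0) (hc : Q.Coprime m) (x y : ℤ) [NeZero Q]
    (h : x * Q - y * m = 1) (d : Dv N) (τ : ℍ) :
    jFun (aff d.1 0 1 (atkW x y h τ)) = jFun (aff (swapQ N Q m hN hQ hc d).1 0 1 τ) := by
  obtain ⟨d, hd⟩ := d
  obtain ⟨a, b, b', ha, hb, rfl⟩ := exists_factor hN hd
  have h' : a * b' ∣ N := by
    rw [hN]; exact mul_dvd_mul ha ⟨b, hb.symm⟩
  have : NeZero (a * b) := Dv.neZero (N := N) ⟨_, hd⟩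
  have : NeZero (a * b') := Dv.neZero (N := N) ⟨_, h'⟩
  have h1 := swapQ_mul hN hQ hc ha hb hd h'
  rw [jFun_aff_atkWQ x y h a b b' ha hb]
  congr 2
  rw [h1]

/-- relations are preserved by the swap -/
theorem relation_swapQ {K : Type*} [Field K] (ι : K →+* ℂ) (hN : N = m * Q) (hQ : Q ≠ 0)
    (hc : Q.Coprime m) (P : MvPolynomial (Dv N) K)
    (h0 : MvPolynomial.aeval (fun d : Dv N => jd K d.1) P = 0) :
    MvPolynomial.aeval (fun d : Dv N => jd K (swapQ N Q m hN hQ hc d).1) P = 0 := by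
  obtain ⟨x, y, h⟩ := exists_bezoutQ hc
  have : NeZero Q := ⟨hQ⟩
  refine (relation_iff ι one_pos (atkW x y h) (atkW_surjective x y h)
    (fun d : Dv N => jd K (swapQ N Q m hN hQ hc d).1) (fun d => ?_) P).mp h0
  rw [coeffMap_jd]
  have h1 : (fun τ => jFun (aff d.1 0 1 (atkW x y h τ))) =
      fun τ => jFun (aff (swapQ N Q m hN hQ hc d).1 0 1 τ) :=
    funext fun τ => jFun_aff_swapQ hN hQ hc x y h d τ
  rw [h1]
  exact lexp_jd _

theorem exists_atkinLehnerQ {K : Type*} [Field K] [Algebra ℚ K] (ι : K →+* ℂ) (hN : N = m * Q)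
    (hQ : Q ≠ 0) (hc : Q.Coprime m) :
    ∃ w : FB K N ≃ₐ[K] FB K N,
      (∀ d : Dv N, w (jdB K _ d) = jdB K _ (swapQ N Q m hN hQ hc d)) ∧ ∀ f, w (w f) = f :=
  exists_swapEquiv (fun d : Dv N => jd K d.1) (swapQ N Q m hN hQ hc) (swapQ_swapQ hN hQ hc)
    (relation_swapQ ι hN hQ hc) (FB K N) (FB_eq_adjoin_range K _) (fun d => jd_mem K _ d.2)

end Subst

end Fermat.Agent.TriGauss
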