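import Mathlib
import Fermat.Agent.TriGauss.AL
import Fermat.Agent.ModFun.Conv

/-!
# Comparison of algebraic embeddings of the function field with analytic substitutions
-/

set_option autoImplicit false

open UpperHalfPlane Complex Function ModularCurve MatrixGroups IntermediateField
open Fermat.Agent.X0Emb Fermat.Agent.JLevelOne Fermat.Agent.TwoGauss
open scoped Polynomial

noncomputable section

namespace Fermat.Agent.TriGauss

section EmbEq

variable {N : ℕ} [NeZero N] {K : Type*} [Field K] [Algebra ℚ K]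

theorem exists_div_aeval (f : FB K N) : ∃ P Q : MvPolynomial (Dv N) K,
    f * MvPolynomial.aeval (jdB K N) Q = MvPolynomial.aeval (jdB K N) P ∧
    MvPolynomial.aeval (fun d : Dv N => jd K d.1) Q ≠ 0 := by
  have hcoe : ∀ R : MvPolynomial (Dv N) K, ((MvPolynomial.aeval (jdB K N) R : FB K N) :
      LaurentSeries K) = MvPolynomial.aeval (fun d : Dv N => jd K d.1) R := by
    intro R
    have h : ((FB K N).val.comp (MvPolynomial.aeval (jdB K N))) =
        MvPolynomial.aeval (fun d : Dv N => jd K d.1) := by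
      ext d
      simp
    exact DFunLike.congr_fun h R
  have hf : (f : LaurentSeries K) ∈ adjoin K (Set.range (fun d : Dv N => jd K d.1)) := by
    rw [← FB_eq_adjoin_range]; exact f.2
  rw [IntermediateField.mem_adjoin_range_iff] at hf
  obtain ⟨P, Q, hPQ⟩ := hf
  by_cases hQ : MvPolynomial.aeval (fun d : Dv N => jd K d.1) Q = 0
  · refine ⟨0, 1, ?_, by simp⟩
    have : f = 0 := by
      apply Subtype.ext
      rw [hPQ, hQ, div_zero]; rfl
    rw [this]; simp
  · refine ⟨P, Q, ?_, hQ⟩
    apply Subtype.ext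
    change (f : LaurentSeries K) * ((MvPolynomial.aeval (jdB K N) Q : FB K N) :
      LaurentSeries K) = ((MvPolynomial.aeval (jdB K N) P : FB K N) : LaurentSeries K)
    rw [hcoe, hcoe, hPQ, div_mul_cancel₀ _ hQ]

theorem emb_eq {ι : K →+* ℂ} {h : ℝ} (hh : 0 < h) {φ : ℍ → ℍ}
    {S : Dv N → LaurentSeries K}
    (hS : ∀ d : Dv N, LExp h (fun τ => jFun (aff d.1 0 1 (φ τ))) (coeffMap ι (S d)))
    (e : FB K N →ₐ[K] LaurentSeries K) (he : ∀ d, e (jdB K N d) = S d)
    (f : FB K N) {F : ℍ → ℂ} (hF : LExp 1 F (coeffMap ι (f : LaurentSeries K)))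
    {g : LaurentSeries K} (hg : LExp h (fun τ => F (φ τ)) (coeffMap ι g)) : e f = g := by
  obtain ⟨P, Q, hPQ, hQ⟩ := exists_div_aeval f
  have hcoe : ∀ R : MvPolynomial (Dv N) K, ((MvPolynomial.aeval (jdB K N) R : FB K N) :
      LaurentSeries K) = MvPolynomial.aeval (fun d : Dv N => jd K d.1) R := by
    intro R
    have h : ((FB K N).val.comp (MvPolynomial.aeval (jdB K N))) =
        MvPolynomial.aeval (fun d : Dv N => jd K d.1) := by
      ext d
      simp
    exact DFunLike.congr_fun h R
  have heR : ∀ R : MvPolynomial (Dv N) K, e (MvPolynomial.aeval (jdB K N) R) =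
      MvPolynomial.aeval S R := by
    intro R
    have h : (e.comp (MvPolynomial.aeval (jdB K N))) = MvPolynomial.aeval S := by
      ext d
      simp [he]
    exact DFunLike.congr_fun h R
  have h1 : ∀ R : MvPolynomial (Dv N) K, LExp 1 (fun τ => evFun (MvPolynomial.map ι R) (id τ))
      (coeffMap ι (MvPolynomial.aeval (fun d : Dv N => jd K d.1) R)) := by
    intro R
    rw [coeffMap_aeval]
    simp only [coeffMap_jd]
    exact lexp_aeval id (fun d : Dv N => jd ℂ d.1) (fun d => lexp_jd d.1) _
  have h2 : ∀ R : MvPolynomial (Dv N) K, LExp h (fun τ => evFun (MvPolynomial.map ι R) (φ τ))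
      (coeffMap ι (MvPolynomial.aeval S R)) := by
    intro R
    rw [coeffMap_aeval]
    exact lexp_aeval φ _ hS _
  have h3 := congrArg (fun x : FB K N => (x : LaurentSeries K)) hPQ
  simp only [MulMemClass.coe_mul, hcoe] at h3
  have h4 := hF.mul (h1 Q)
  rw [← map_mul, h3] at h4
  have h5 : (F * fun τ => evFun (MvPolynomial.map ι Q) (id τ)) =
      fun τ => evFun (MvPolynomial.map ι P) (id τ) := h4.funext (h1 P)
  have h6 := hg.mul (h2 Q)
  have h7 : ((fun τ => F (φ τ)) * fun τ => evFun (MvPolynomial.map ι Q) (φ τ)) =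
      fun τ => evFun (MvPolynomial.map ι P) (φ τ) := by
    funext τ
    exact congrFun h5 (φ τ)
  rw [h7, ← map_mul] at h6
  have h8 : g * MvPolynomial.aeval S Q = MvPolynomial.aeval S P :=
    coeffMap_injective' ι (h6.unique hh (h2 P))
  have h9 : e f * MvPolynomial.aeval S Q = MvPolynomial.aeval S P := by
    rw [← heR, ← heR, ← map_mul, hPQ]
  have h10 : MvPolynomial.aeval S Q ≠ 0 := by
    intro h0
    rw [← heR] at h0
    have h11 : (MvPolynomial.aeval (jdB K N) Q : FB K N) = 0 := by
      exact (map_eq_zero e).mp h0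
    apply hQ
    rw [← hcoe, h11]; rfl
  exact mul_right_cancel₀ h10 (h9.trans h8.symm)

end EmbEq

end Fermat.Agent.TriGauss
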