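import Mathlib
import Fermat.Agent.TriGauss.Growth
import Fermat.Agent.TriGauss.Transfer
import Fermat.Agent.X1Char.Basic
import Fermat.Agent.ModFun.HermiteGen
import Fermat.Agent.X0Emb.Growth

/-!
# Quotients of discriminants: transformation and growth
-/

set_option autoImplicit false

open UpperHalfPlane hiding I
open Complex Function ModularCurve MatrixGroups ModularForm CongruenceSubgroup Filter Asymptotics
open Fermat.Agent.X0Emb Fermat.Agent.JLevelOne Fermat.Agent.ModFun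
open scoped Polynomial Manifold Topology

noncomputable section

namespace Fermat.Agent.TriGauss

/-- The cocycle identity for `(a₁ b₁; 0 d₁) g = g' (a₂ b₂; 0 d₂)`. -/
theorem disc_aff_smul (a₁ b₁ d₁ a₂ b₂ d₂ : ℕ) [NeZero a₁] [NeZero d₁] [NeZero a₂] [NeZero d₂]
    (g g' : SL(2, ℤ)) (h00 : a₁ * g 0 0 + b₁ * g 1 0 = g' 0 0 * a₂)
    (h01 : a₁ * g 0 1 + b₁ * g 1 1 = g' 0 0 * b₂ + g' 0 1 * d₂)
    (h10 : d₁ * g 1 0 = g' 1 0 * a₂) (h11 : d₁ * g 1 1 = g' 1 0 * b₂ + g' 1 1 * d₂) (τ : ℍ) :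
    discriminant (aff a₁ b₁ d₁ (g • τ)) =
      ((d₁ : ℂ) / d₂ * (g 1 0 * τ + g 1 1)) ^ 12 * discriminant (aff a₂ b₂ d₂ τ) := by
  have hd₂ : (d₂ : ℂ) ≠ 0 := by exact_mod_cast NeZero.ne d₂
  have e10 : (d₁ : ℂ) * g 1 0 = g' 1 0 * a₂ := by exact_mod_cast h10
  have e11 : (d₁ : ℂ) * g 1 1 = g' 1 0 * b₂ + g' 1 1 * d₂ := by exact_mod_cast h11
  rw [aff_smul_eq a₁ b₁ d₁ a₂ b₂ d₂ g g' h00 h01 h10 h11 τ, discriminant_smul]
  congr 1
  have h1 : denom g' (aff a₂ b₂ d₂ τ) = (g' 1 0 : ℂ) * ((a₂ * (τ : ℂ) + b₂) / d₂) + g' 1 1 := by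
    simp [denom, coe_aff]
  rw [h1, show (12 : ℤ) = ((12 : ℕ) : ℤ) from rfl, zpow_natCast]
  congr 1
  field_simp
  linear_combination -(τ : ℂ) * e10 - e11

/-! ### Growth -/

/-- `exp(-2π x Im τ)` -/
def gr (x : ℝ) (τ : ℍ) : ℝ := Real.exp (-(2 * Real.pi * x * τ.im))

theorem gr_mul (x y : ℝ) : (fun τ => gr x τ * gr y τ) = gr (x + y) := by
  funext τ
  rw [gr, gr, gr, ← Real.exp_add]
  congr 1; ring

theorem gr_inv (x : ℝ) : (fun τ => (gr x τ)⁻¹) = gr (-x) := by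
  funext τ
  rw [gr, gr, ← Real.exp_neg]
  congr 1; ring

theorem gr_zero : gr 0 = fun _ => 1 := by
  funext τ; simp [gr]

theorem disc_theta : (fun τ : ℍ => discriminant τ) =Θ[atImInfty] gr 1 := by
  have h1 := tendsto_atImInfty_tprod_one_sub_eta_q_pow
  have h2 := ((isEquivalent_const_iff_tendsto one_ne_zero).mpr h1).isTheta
  have h2' : (fun τ : ℍ => ∏' (n : ℕ), (1 - eta_q n ↑τ) ^ 24) =Θ[atImInfty]
      (fun _ : ℍ => (1 : ℝ)) := h2.trans (isTheta_const_const one_ne_zero one_ne_zero)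
  have h3 : (fun τ : ℍ => Periodic.qParam 1 (τ : ℂ)) =Θ[atImInfty] gr 1 := by
    refine IsTheta.of_norm_eventuallyEq (Eventually.of_forall fun τ => ?_)
    change ‖_‖ = gr 1 τ
    rw [Fermat.Agent.X0Deg.norm_q, gr]
    congr 1; ring
  have h4 := h3.mul h2'
  have h5 : (fun τ : ℍ => Periodic.qParam 1 (τ : ℂ) * ∏' (n : ℕ), (1 - eta_q n ↑τ) ^ 24) =
      fun τ => discriminant τ := by
    funext τ
    rw [discriminant_eq_q_prod]
  rw [h5] at h4
  simpa using h4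

theorem im_aff (a b d : ℕ) [NeZero a] [NeZero d] (τ : ℍ) :
    (aff a b d τ).im = (a : ℝ) / d * τ.im := by
  have h1 : (aff a b d τ).im = ((aff a b d τ : ℍ) : ℂ).im := rfl
  rw [h1, coe_aff, Complex.div_natCast_im]
  simp only [add_im, mul_im, natCast_re, natCast_im, zero_mul, add_zero, coe_im]
  ring

theorem gr_aff (a b d : ℕ) [NeZero a] [NeZero d] (x : ℝ) :
    (fun τ => gr x (aff a b d τ)) = gr ((a : ℝ) / d * x) := by
  funext τ
  rw [gr, gr, im_aff]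
  congr 1; ring

theorem theta_comp_aff (a b d : ℕ) [NeZero a] [NeZero d] {f : ℍ → ℂ} {x : ℝ}
    (h : f =Θ[atImInfty] gr x) : (fun τ => f (aff a b d τ)) =Θ[atImInfty] gr ((a : ℝ) / d * x) := by
  rw [← gr_aff a b d]
  exact ⟨h.1.comp_tendsto (tendsto_aff a b d), h.2.comp_tendsto (tendsto_aff a b d)⟩

/-- the invariant norm -/
def nD (τ : ℍ) : ℝ := ‖discriminant τ‖ * τ.im ^ 6

theorem nD_smul (g : SL(2, ℤ)) (τ : ℍ) : nD (g • τ) = nD τ := by
  rw [nD, nD, discriminant_smul, ModularGroup.im_smul_eq_div_normSq, norm_mul, norm_zpow,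
    Complex.normSq_eq_norm_sq]
  have h : ‖denom g τ‖ ≠ 0 := norm_ne_zero_iff.mpr (denom_ne_zero _ _)
  rw [show (12 : ℤ) = ((12 : ℕ) : ℤ) from rfl, zpow_natCast]
  field_simp

theorem nD_pos (τ : ℍ) : 0 < nD τ :=
  mul_pos (norm_pos_iff.mpr (discriminant_ne_zero τ)) (pow_pos τ.im_pos _)

theorem norm_disc_eq (τ : ℍ) : ‖discriminant τ‖ = nD τ / τ.im ^ 6 := by
  rw [nD, mul_div_cancel_right₀ _ (pow_pos τ.im_pos _).ne']

theorem aff_one (τ : ℍ) : aff 1 0 1 τ = τ := by ext; simp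

theorem aff_aff_one (a b : ℕ) [NeZero a] [NeZero b] [NeZero (a * b)] (τ : ℍ) :
    aff (a * b) 0 1 τ = aff a 0 1 (aff b 0 1 τ) := by
  ext; simp [coe_aff, mul_assoc]

theorem hermite_prime {q : ℕ} [NeZero q] (hq : q.Prime) (σ : SL(2, ℤ)) :
    ∃ (a b d : ℕ) (_ : NeZero a) (_ : NeZero d) (g : SL(2, ℤ)),
      ((a : ℝ) / d = q ∨ (a : ℝ) / d = 1 / q) ∧ ∀ τ, aff q 0 1 (σ • τ) = g • aff a b d τ := by
  obtain ⟨a, b, d, ha, hd, g, h1, h2, h3⟩ := exists_hermite q σ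
  refine ⟨a, b, d, ha, hd, g, ?_, h3⟩
  have h4 : a ∣ q := Dvd.intro _ h1
  rcases (Nat.dvd_prime hq).mp h4 with h | h
  · right
    rw [h, one_mul] at h1
    rw [h, h1, Nat.cast_one]
  · left
    have h5 : d = 1 := by
      rw [h] at h1
      exact Nat.eq_of_mul_eq_mul_left hq.pos (by rw [h1, mul_one])
    rw [h, h5, Nat.cast_one, div_one]

theorem theta_ratio {D : ℕ} [NeZero D] (σ g : SL(2, ℤ)) (T : ℍ → ℍ) {x : ℝ} (hx : 0 < x)
    (h1 : ∀ τ, aff D 0 1 (σ • τ) = g • T τ) (h2 : ∀ τ, (T τ).im = x * τ.im)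
    (h3 : (fun τ => discriminant (T τ)) =Θ[atImInfty] gr x) :
    (fun τ => discriminant (aff D 0 1 (σ • τ)) / discriminant (σ • τ)) =Θ[atImInfty]
      gr (x - 1) := by
  have hD : (0 : ℝ) < D := by exact_mod_cast Nat.pos_of_ne_zero (NeZero.ne D)
  have h4 : (fun τ : ℍ => discriminant (aff D 0 1 (σ • τ)) / discriminant (σ • τ))
      =Θ[atImInfty] (fun τ : ℍ => (((x / D) ^ 6 : ℝ) : ℂ) *
        (discriminant (T τ) / discriminant τ)) := by
    refine IsTheta.of_norm_eventuallyEq_norm (Eventually.of_forall fun τ => ?_)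
    change ‖discriminant (aff D 0 1 (σ • τ)) / discriminant (σ • τ)‖ =
      ‖(((x / D) ^ 6 : ℝ) : ℂ) * (discriminant (T τ) / discriminant τ)‖
    have e1 : (aff D 0 1 (σ • τ)).im = D * (σ • τ).im := by rw [im_aff]; simp
    rw [norm_mul, norm_div, norm_div, norm_disc_eq, norm_disc_eq (σ • τ), e1, h1, nD_smul,
      nD_smul, nD, nD, h2, Complex.norm_real, Real.norm_eq_abs, abs_of_pos (by positivity)]
    have h5 := (σ • τ).im_pos
    have h6 := τ.im_pos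
    have h7 : ‖discriminant τ‖ ≠ 0 := norm_ne_zero_iff.mpr (discriminant_ne_zero τ)
    field_simp
  have hc : (((x / D) ^ 6 : ℝ) : ℂ) ≠ 0 := by
    have : ((x / D) ^ 6 : ℝ) ≠ 0 := by positivity
    exact_mod_cast this
  have h5 := h4.trans ((isTheta_const_mul_left hc).mpr (h3.div disc_theta))
  have h6 : (fun τ => gr x τ / gr 1 τ) = gr (x - 1) := by
    have := gr_mul x (-1)
    rw [← sub_eq_add_neg] at this
    rw [← this, ← gr_inv]
    funext τ
    rw [div_eq_mul_inv]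
  rwa [h6] at h5

theorem exists_theta {q : ℕ} [NeZero q] [NeZero (q * q)] (hq : q.Prime) (σ : SL(2, ℤ)) :
    ∃ x y : ℝ, (x = q ∨ x = 1 / q) ∧ (y = q ∨ y = 1 / q) ∧
      (fun τ => discriminant (aff q 0 1 (σ • τ)) / discriminant (σ • τ)) =Θ[atImInfty]
        gr (x - 1) ∧
      (fun τ => discriminant (aff (q * q) 0 1 (σ • τ)) / discriminant (σ • τ)) =Θ[atImInfty]
        gr (x * y - 1) := by
  have hq0 : (0 : ℝ) < q := by exact_mod_cast hq.pos
  obtain ⟨a, b, d, ha, hd, g, hx, h1⟩ := hermite_prime hq σ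
  obtain ⟨a', b', d', ha', hd', g', hy, h2⟩ := hermite_prime hq g
  have hx0 : 0 < (a : ℝ) / d := by rcases hx with h | h <;> rw [h] <;> positivity
  have hy0 : 0 < (a' : ℝ) / d' := by rcases hy with h | h <;> rw [h] <;> positivity
  refine ⟨a / d, a' / d', hx, hy, ?_, ?_⟩
  · refine theta_ratio σ g _ hx0 h1 (fun τ => im_aff a b d τ) ?_
    simpa using theta_comp_aff a b d disc_theta
  · refine theta_ratio σ g' (fun τ => aff a' b' d' (aff a b d τ)) (mul_pos hx0 hy0) ?_ ?_ ?_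
    · intro τ
      rw [aff_aff_one, h1, h2]
    · intro τ
      rw [im_aff, im_aff]; ring
    · have h3 := theta_comp_aff a' b' d' disc_theta
      rw [mul_one] at h3
      exact theta_comp_aff a b d h3

/-! ### Quotients of discriminants -/

/-- `Δ(aτ)/Δ(bτ)` -/
def rr (a b : ℕ) [NeZero a] [NeZero b] (τ : ℍ) : ℂ :=
  discriminant (aff a 0 1 τ) / discriminant (aff b 0 1 τ)

theorem rr_mul_rr (a b c : ℕ) [NeZero a] [NeZero b] [NeZero c] (τ : ℍ) :
    rr a b τ * rr b c τ = rr a c τ := by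
  rw [rr, rr, rr, div_mul_div_cancel₀ (discriminant_ne_zero _)]

theorem rr_ne_zero (a b : ℕ) [NeZero a] [NeZero b] (τ : ℍ) : rr a b τ ≠ 0 :=
  div_ne_zero (discriminant_ne_zero _) (discriminant_ne_zero _)

theorem rr_inv (a b : ℕ) [NeZero a] [NeZero b] (τ : ℍ) : (rr a b τ)⁻¹ = rr b a τ := by
  rw [rr, rr, inv_div]

theorem rr_mdiff (a b : ℕ) [NeZero a] [NeZero b] : MDiff (rr a b) :=
  (mdiff_comp_aff mdiff_discriminant a 0 1).div (mdiff_comp_aff mdiff_discriminant b 0 1)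
    fun _ => discriminant_ne_zero _

theorem disc_gamma0 {N d : ℕ} [NeZero d] (hd : d ∣ N) (γ : SL(2, ℤ)) (hγ : γ ∈ Gamma0 N) (τ : ℍ) :
    discriminant (aff d 0 1 (γ • τ)) =
      ((γ 1 0 : ℂ) * τ + γ 1 1) ^ 12 * discriminant (aff d 0 1 τ) := by
  rw [Gamma0_mem] at hγ
  have h1 : (N : ℤ) ∣ γ 1 0 := (ZMod.intCast_zmod_eq_zero_iff_dvd _ _).mp hγ
  obtain ⟨c, hc⟩ : (d : ℤ) ∣ γ 1 0 := (Int.natCast_dvd_natCast.mpr hd).trans h1
  let g' : SL(2, ℤ) := ⟨!![γ 0 0, d * γ 0 1; c, γ 1 1], by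
    rw [Matrix.det_fin_two_of]
    linear_combination sl_det γ + γ 0 1 * hc⟩
  have e00 : g' 0 0 = γ 0 0 := rfl
  have e01 : g' 0 1 = d * γ 0 1 := rfl
  have e10 : g' 1 0 = c := rfl
  have e11 : g' 1 1 = γ 1 1 := rfl
  have h := disc_aff_smul d 0 1 d 0 1 γ g' (by rw [e00]; push_cast; ring)
    (by rw [e00, e01]; push_cast; ring) (by rw [e10]; push_cast; linear_combination hc)
    (by rw [e10, e11]; push_cast; ring) τ
  rw [h]; simp

theorem rr_inv_gamma0 {N a b : ℕ} [NeZero a] [NeZero b] (ha : a ∣ N) (hb : b ∣ N)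
    (γ : SL(2, ℤ)) (hγ : γ ∈ Gamma0 N) (τ : ℍ) : rr a b (γ • τ) = rr a b τ := by
  rw [rr, rr, disc_gamma0 ha γ hγ, disc_gamma0 hb γ hγ, mul_div_mul_left]
  exact pow_ne_zero _ (sl_denom_ne_zero γ τ)

theorem lexp_disc : LExp 1 discriminant (S28aux.deltaC ℂ) := X1Char.lexp_discriminant'

theorem lexp_rr (a b : ℕ) [NeZero a] [NeZero b] :
    LExp 1 (rr a b) (qExpand ℂ a (S28aux.deltaC ℂ) * qExpand ℂ b (S28aux.deltaInvC ℂ)) := by
  have h1 : LExp 1 (fun τ => discriminant (aff a 0 1 τ)) (qExpand ℂ a (S28aux.deltaC ℂ)) := by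
    have h := lexp_disc.aff a 0 1 a 1 (by ring)
    rw [zetaU_zero, twist_one, Nat.cast_one] at h
    exact h
  have h2 : LExp 1 (fun τ => (discriminant (aff b 0 1 τ))⁻¹)
      (qExpand ℂ b (S28aux.deltaInvC ℂ)) := by
    have h := X1Char.lexp_discriminant_inv.aff b 0 1 b 1 (by ring)
    rw [zetaU_zero, twist_one, Nat.cast_one] at h
    exact h
  exact h1.mul h2

/-! ### Growth of quotients -/

theorem gr_bound {x : ℝ} (hx : 0 ≤ x) {f : ℍ → ℂ} (hf : f =Θ[atImInfty] gr x) :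
    IsBoundedAtImInfty f := by
  have h1 : gr x =O[atImInfty] (fun _ => (1 : ℝ)) := by
    refine IsBigO.of_bound 1 (Eventually.of_forall fun τ => ?_)
    rw [gr, Real.norm_eq_abs, abs_of_pos (Real.exp_pos _), norm_one, one_mul, Real.exp_le_one_iff]
    have := τ.im_pos
    have := Real.pi_pos
    have : 0 ≤ 2 * Real.pi * x * τ.im := by positivity
    linarith
  exact hf.1.trans h1

theorem theta_mul_disc {x : ℝ} {f : ℍ → ℂ} (hf : f =Θ[atImInfty] gr x) (c : ℕ) :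
    (fun τ => f τ * discriminant τ ^ c) =Θ[atImInfty] gr (x + c) := by
  have h1 := hf.mul (disc_theta.pow c)
  have h2 : (fun τ => gr 1 τ ^ c) = gr c := by
    funext τ
    rw [gr, gr, ← Real.exp_nat_mul]
    congr 1; ring
  have h3 : (fun τ => gr x τ * gr 1 τ ^ c) = gr (x + c) := by
    rw [← gr_mul, ← h2]
  rwa [h3] at h1

theorem GB_of_theta {F : ℍ → ℂ} {c : ℕ}
    (h : ∀ σ : SL(2, ℤ), ∃ x : ℝ, -(c : ℝ) ≤ x ∧ (fun τ => F (σ • τ)) =Θ[atImInfty] gr x) :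
    GB c F := by
  intro σ
  obtain ⟨x, hx, h1⟩ := h σ
  exact gr_bound (by linarith) (theta_mul_disc h1 c)

theorem growthInf_of_theta {F : ℍ → ℂ}
    (h : ∀ σ : SL(2, ℤ), ∃ x : ℝ, (fun τ => F (σ • τ)) =Θ[atImInfty] gr x) :
    ModGrowth F := by
  intro σ
  obtain ⟨x, h1⟩ := h σ
  refine ⟨⌈2 * Real.pi * |x|⌉₊, h1.1.trans (IsBigO.of_bound 1 (Eventually.of_forall fun τ => ?_))⟩
  rw [gr, Real.norm_eq_abs, Real.norm_eq_abs, abs_of_pos (Real.exp_pos _),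
    abs_of_pos (Real.exp_pos _), one_mul, Real.exp_le_exp]
  have h2 : -(2 * Real.pi * x * τ.im) ≤ 2 * Real.pi * |x| * τ.im := by
    have h3 : -x ≤ |x| := neg_le_abs x
    have h4 : 0 ≤ 2 * Real.pi * τ.im := by
      have := τ.im_pos
      have := Real.pi_pos
      positivity
    nlinarith
  exact h2.trans (mul_le_mul_of_nonneg_right (Nat.le_ceil _) τ.im_pos.le)

end Fermat.Agent.TriGauss
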