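import Mathlib

/-!
# Integrality from an explicit monic equation
-/

set_option autoImplicit false

open Polynomial

namespace Fermat.Agent.TriGauss

theorem isIntegral_of_sum {K F : Type*} [Field K] [Field F] [Algebra K F] (R : Subalgebra K F)
    {x : F} {n : ℕ} (a : ℕ → F) (ha : ∀ k, a k ∈ R) (h0 : a 0 = 1)
    (h : ∑ k ∈ Finset.range (n + 1), a k * x ^ (n - k) = 0) : IsIntegral R x := by
  set p : R[X] := ∑ k ∈ Finset.range n, C (⟨a (k + 1), ha _⟩ : R) * X ^ (n - (k + 1)) with hp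
  have hdeg : p.degree < n := by
    rcases Nat.eq_zero_or_pos n with hn | hn
    · subst hn
      rw [hp, Finset.range_zero, Finset.sum_empty, degree_zero]
      exact WithBot.bot_lt_coe 0
    · refine lt_of_le_of_lt (degree_le_of_natDegree_le (n := n - 1) ?_)
        (by exact_mod_cast (by omega : n - 1 < n))
      rw [hp]
      refine natDegree_sum_le_of_forall_le _ _ fun k hk => ?_
      refine (natDegree_C_mul_X_pow_le _ _).trans (by omega)
  refine ⟨X ^ n + p, monic_X_pow_add hdeg, ?_⟩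
  rw [eval₂_add, eval₂_pow, eval₂_X, hp, eval₂_finsetSum]
  rw [Finset.sum_range_succ', h0] at h
  rw [← h, add_comm, one_mul, Nat.sub_zero]
  congr 1
  refine Finset.sum_congr rfl fun k _ => ?_
  rw [eval₂_mul, eval₂_C, eval₂_pow, eval₂_X]
  rfl

theorem aeval_mul_inv_pow_mem {K F : Type*} [Field K] [Field F] [Algebra K F] {j : F} (hj : j ≠ 0)
    {P : K[X]} {m : ℕ} (hP : P.natDegree ≤ m) :
    aeval j P * j⁻¹ ^ m ∈ Algebra.adjoin K {j⁻¹} := by
  rw [aeval_eq_sum_range, Finset.sum_mul]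
  refine Subalgebra.sum_mem _ fun i hi => ?_
  rw [Finset.mem_range] at hi
  have h1 : j ^ i * j⁻¹ ^ m = j⁻¹ ^ (m - i) := by
    obtain ⟨e, rfl⟩ : ∃ e, m = i + e := ⟨m - i, by omega⟩
    rw [pow_add, ← mul_assoc, ← mul_pow, mul_inv_cancel₀ hj, one_pow, one_mul]
    congr 1; omega
  rw [smul_mul_assoc, h1]
  exact Subalgebra.smul_mem _ (Subalgebra.pow_mem _ (Algebra.self_mem_adjoin_singleton K _) _) _

theorem isIntegral_of_rel {K F : Type*} [Field K] [Field F] [Algebra K F] {j x : F} {n : ℕ}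
    {P : ℕ → K[X]} (h0 : P 0 = 1)
    (h : ∑ k ∈ Finset.range (n + 1), aeval j (P k) * x ^ (n - k) = 0) :
    IsIntegral (Algebra.adjoin K {j}) x :=
  isIntegral_of_sum _ _ (fun k => aeval_mem_adjoin_singleton K j) (by rw [h0, map_one]) h

theorem isIntegral_inv_of_rel {K F : Type*} [Field K] [Field F] [Algebra K F] {j x : F}
    (hj : j ≠ 0) {n c : ℕ} {P : ℕ → K[X]} (h0 : P 0 = 1) (hP : ∀ k, (P k).natDegree ≤ c * k)
    (h : ∑ k ∈ Finset.range (n + 1), aeval j (P k) * x ^ (n - k) = 0) :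
    IsIntegral (Algebra.adjoin K {j⁻¹}) (x * j⁻¹ ^ c) := by
  refine isIntegral_of_sum (n := n) _ (fun k => aeval j (P k) * j⁻¹ ^ (c * k))
    (fun k => aeval_mul_inv_pow_mem hj (hP k)) (by rw [h0, map_one, mul_zero, pow_zero, mul_one]) ?_
  have h1 : ∀ k ∈ Finset.range (n + 1), aeval j (P k) * j⁻¹ ^ (c * k) * (x * j⁻¹ ^ c) ^ (n - k) =
      (aeval j (P k) * x ^ (n - k)) * j⁻¹ ^ (c * n) := by
    intro k hk
    rw [Finset.mem_range] at hk
    obtain ⟨e, rfl⟩ : ∃ e, n = k + e := ⟨n - k, by omega⟩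
    rw [Nat.add_sub_cancel_left, mul_pow, ← pow_mul, mul_add, pow_add]
    ring
  rw [Finset.sum_congr rfl h1, ← Finset.sum_mul, h, zero_mul]

end Fermat.Agent.TriGauss
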