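import Mathlib
import Fermat.Agent.TriGauss.Disc
import Fermat.Agent.TriGauss.Integral
import Fermat.Prelude.Thm_ModularCurve_coeff_jqModC_neg_one

/-!
# The modular units `Δ(aτ)/Δ(bτ)` in the function field
-/

set_option autoImplicit false

open UpperHalfPlane hiding I
open Complex Function ModularCurve MatrixGroups ModularForm CongruenceSubgroup Filter Asymptotics
open Fermat.Agent.X0Emb Fermat.Agent.JLevelOne Fermat.Agent.ModFun
open scoped Polynomial Manifold Topology IntermediateField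

noncomputable section

namespace Fermat.Agent.TriGauss

/-! ### Growth -/

theorem gr_div (x y : ℝ) : (fun τ => gr x τ / gr y τ) = gr (x - y) := by
  rw [sub_eq_add_neg, ← gr_mul, ← gr_inv]
  funext τ
  rw [div_eq_mul_inv]

theorem rr_eq_div (a b : ℕ) [NeZero a] [NeZero b] (τ : ℍ) :
    rr a b τ = (discriminant (aff a 0 1 τ) / discriminant τ) /
      (discriminant (aff b 0 1 τ) / discriminant τ) := by
  rw [div_div_div_cancel_right₀ (discriminant_ne_zero _), rr]

theorem exists_theta_one (a : ℕ) [NeZero a] (σ : SL(2, ℤ)) : ∃ x : ℝ,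
    (fun τ => discriminant (aff a 0 1 (σ • τ)) / discriminant (σ • τ)) =Θ[atImInfty]
      gr (x - 1) := by
  obtain ⟨a', b', d', ha', hd', g, h1, -, h2⟩ := exists_hermite a σ
  have h3 : (0 : ℝ) < a' := by exact_mod_cast Nat.pos_of_ne_zero (NeZero.ne a')
  have h4 : (0 : ℝ) < d' := by exact_mod_cast Nat.pos_of_ne_zero (NeZero.ne d')
  refine ⟨a' / d', theta_ratio σ g _ (div_pos h3 h4) h2 (fun τ => im_aff a' b' d' τ) ?_⟩
  simpa using theta_comp_aff a' b' d' disc_theta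

theorem rr_growth (a b : ℕ) [NeZero a] [NeZero b] : ModGrowth (rr a b) := by
  refine growthInf_of_theta fun σ => ?_
  obtain ⟨x, hx⟩ := exists_theta_one a σ
  obtain ⟨y, hy⟩ := exists_theta_one b σ
  refine ⟨x - 1 - (y - 1), ?_⟩
  simp only [rr_eq_div]
  have := hx.div hy
  rwa [gr_div] at this

theorem isModFun_rr {N a b : ℕ} [NeZero a] [NeZero b] (ha : a ∣ N) (hb : b ∣ N) :
    IsModFun (Gamma0 N) (rr a b) :=
  isModFun_of (rr_mdiff a b) (rr_inv_gamma0 ha hb) (rr_growth a b)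

theorem rr_smul_eq (a b : ℕ) [NeZero a] [NeZero b] (σ : SL(2, ℤ)) : (fun τ : ℍ => rr a b (σ • τ)) =
    fun τ => (discriminant (aff a 0 1 (σ • τ)) / discriminant (σ • τ)) /
      (discriminant (aff b 0 1 (σ • τ)) / discriminant (σ • τ)) := by
  funext τ; rw [rr_eq_div]

section GBq

variable {q : ℕ} [NeZero q] [NeZero (q * q)] (hq : q.Prime)
include hq

theorem exists_theta_rr (σ : SL(2, ℤ)) : ∃ x y : ℝ, (x = q ∨ x = 1 / q) ∧ (y = q ∨ y = 1 / q) ∧
    (fun τ => rr 1 q (σ • τ)) =Θ[atImInfty] gr (1 - x) ∧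
    (fun τ => rr q (q * q) (σ • τ)) =Θ[atImInfty] gr (x * (1 - y)) := by
  obtain ⟨x, y, hx, hy, h1, h2⟩ := exists_theta hq σ
  refine ⟨x, y, hx, hy, ?_, ?_⟩
  · have h3 : (fun τ : ℍ => rr 1 q (σ • τ)) = fun τ =>
        (discriminant (aff q 0 1 (σ • τ)) / discriminant (σ • τ))⁻¹ := by
      funext τ; rw [inv_div, rr, aff_one]
    rw [h3]
    have h4 := h1.inv
    rw [gr_inv] at h4
    rwa [show -(x - 1) = 1 - x by ring] at h4
  · rw [rr_smul_eq]
    have h4 := h1.div h2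
    rw [gr_div] at h4
    rwa [show x - 1 - (x * y - 1) = x * (1 - y) by ring] at h4

omit [NeZero q] [NeZero (q * q)] in
theorem bounds {x y : ℝ} (hx : x = q ∨ x = 1 / q) (hy : y = q ∨ y = 1 / q) :
    -((q : ℝ) - 1) ≤ 1 - x ∧ -1 ≤ x - 1 ∧ -((q : ℝ) * q - q) ≤ x * (1 - y) ∧
    -((q : ℝ) - 1) ≤ -(x * (1 - y)) ∧ -(2 * ((q : ℝ) - 1)) ≤ (1 - x) - x * (1 - y) := by
  have h2 : (2 : ℝ) ≤ q := by exact_mod_cast hq.two_le
  obtain ⟨z, hz⟩ : ∃ z : ℝ, z = 1 / q := ⟨_, rfl⟩
  have hz0 : 0 < z := by rw [hz]; positivity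
  have hz1 : z ≤ 1 / 2 := by rw [hz]; exact one_div_le_one_div_of_le two_pos h2
  have hzq : z * q = 1 := by rw [hz]; field_simp
  rw [← hz] at hx hy
  have h3 : z * z ≤ 1 / 2 * z := mul_le_mul_of_nonneg_right hz1 hz0.le
  rcases hx with rfl | rfl <;> rcases hy with rfl | rfl <;>
    refine ⟨?_, ?_, ?_, ?_, ?_⟩ <;> nlinarith

theorem GB_u₁ : GB (q - 1) (rr 1 q) := by
  refine GB_of_theta fun σ => ?_
  obtain ⟨x, y, hx, hy, h1, h2⟩ := exists_theta_rr hq σ
  refine ⟨_, ?_, h1⟩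
  rw [Nat.cast_sub hq.one_lt.le, Nat.cast_one]
  exact (bounds hq hx hy).1

theorem GB_u₁_inv : GB 1 (rr q 1) := by
  refine GB_of_theta fun σ => ?_
  obtain ⟨x, y, hx, hy, h1, h2⟩ := exists_theta_rr hq σ
  have h3 : (fun τ : ℍ => rr q 1 (σ • τ)) = fun τ => (rr 1 q (σ • τ))⁻¹ := by
    funext τ; rw [rr_inv]
  have h4 := h1.inv
  rw [gr_inv, ← h3] at h4
  refine ⟨_, ?_, h4⟩
  have := (bounds hq hx hy).2.1
  push_cast
  linarith

theorem GB_u₂ : GB (q * q - q) (rr q (q * q)) := by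
  refine GB_of_theta fun σ => ?_
  obtain ⟨x, y, hx, hy, h1, h2⟩ := exists_theta_rr hq σ
  refine ⟨_, ?_, h2⟩
  rw [Nat.cast_sub (Nat.le_mul_of_pos_left q hq.pos), Nat.cast_mul]
  exact (bounds hq hx hy).2.2.1

theorem GB_u₂_inv : GB (q - 1) (rr (q * q) q) := by
  refine GB_of_theta fun σ => ?_
  obtain ⟨x, y, hx, hy, h1, h2⟩ := exists_theta_rr hq σ
  have h3 : (fun τ : ℍ => rr (q * q) q (σ • τ)) = fun τ => (rr q (q * q) (σ • τ))⁻¹ := by
    funext τ; rw [rr_inv]
  have h4 := h2.inv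
  rw [gr_inv, ← h3] at h4
  refine ⟨_, ?_, h4⟩
  rw [Nat.cast_sub hq.one_lt.le, Nat.cast_one]
  exact (bounds hq hx hy).2.2.2.1

theorem GB_U_inv : GB (2 * (q - 1)) (fun τ => rr 1 q τ / rr q (q * q) τ) := by
  refine GB_of_theta fun σ => ?_
  obtain ⟨x, y, hx, hy, h1, h2⟩ := exists_theta_rr hq σ
  have h4 := h1.div h2
  rw [gr_div] at h4
  refine ⟨_, ?_, h4⟩
  rw [Nat.cast_mul, Nat.cast_sub hq.one_lt.le, Nat.cast_one]
  have := (bounds hq hx hy).2.2.2.2
  push_cast
  linarith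

end GBq

/-! ### Membership -/

section Member

variable {N : ℕ} [NeZero N]

theorem fullC_rat_le (N : ℕ) : ∀ x ∈ modularFunctionFieldFullC ℚ N,
    x ∈ modularFunctionFieldFull N := by
  intro x hx
  have h : modularFunctionFieldFullC ℚ N ≤ modularFunctionFieldFull N := by
    rw [modularFunctionFieldFullC, IntermediateField.adjoin_le_iff]
    rintro _ ⟨d, hd, hdN, rfl⟩
    have := jqd_mem_full N hdN
    rwa [← jqModC_rat] at this
  exact h hx

/-- The `q`-expansion of `Δ(aτ)/Δ(bτ)`. -/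
def rS (R : Type*) [CommRing R] (a b : ℕ) [NeZero a] [NeZero b] : LaurentSeries R :=
  qExpand R a (S28aux.deltaC R) * qExpand R b (S28aux.deltaInvC R)

theorem coeffMap_rS {R S : Type*} [CommRing R] [CommRing S] (f : R →+* S) (a b : ℕ) [NeZero a]
    [NeZero b] : coeffMap f (rS R a b) = rS S a b := by
  rw [rS, rS, map_mul, coeffMap_qExpand, coeffMap_qExpand, S28aux.coeffMap_deltaC,
    S28aux.coeffMap_deltaInvC]

theorem rS_mem_rat {a b : ℕ} [NeZero a] [NeZero b] (ha : a ∣ N) (hb : b ∣ N) :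
    rS ℚ a b ∈ modularFunctionFieldFull N := by
  apply fullC_rat_le
  apply modularFunctionFieldC_le_full
  refine mem_modularFunctionFieldC N (algebraMap ℚ ℂ) (rr_mdiff a b) (rr_inv_gamma0 ha hb)
    (rr_growth a b) ?_
  rw [coeffMap_rS]
  exact lexp_rr a b

variable (K : Type*) [Field K] [Algebra ℚ K]

theorem rS_mem {a b : ℕ} [NeZero a] [NeZero b] (ha : a ∣ N) (hb : b ∣ N) :
    rS K a b ∈ TwoGauss.FB K N := by
  have h1 : coeffEmb K (rS ℚ a b) = rS K a b := coeffMap_rS _ a b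
  rw [← h1]
  exact coeffEmb_mem_laurentBaseChange K (rS_mem_rat ha hb)

/-- The modular unit `Δ(aτ)/Δ(bτ)` in the function field. -/
def rB (N : ℕ) [NeZero N] (a b : TwoGauss.Dv N) : TwoGauss.FB K N := ⟨rS K a.1 b.1, rS_mem K a.2 b.2⟩

@[simp] theorem coe_rB (a b : TwoGauss.Dv N) :
    ((rB K N a b : TwoGauss.FB K N) : LaurentSeries K) = rS K a.1 b.1 := rfl

theorem rB_mul_rB (a b c : TwoGauss.Dv N) : rB K N a b * rB K N b c = rB K N a c := by
  apply Subtype.ext
  change rS K a.1 b.1 * rS K b.1 c.1 = rS K a.1 c.1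
  have h : qExpand K b.1 (S28aux.deltaInvC K) * qExpand K b.1 (S28aux.deltaC K) = 1 := by
    rw [← map_mul, mul_comm, S28aux.deltaC_mul_deltaInvC, map_one]
  rw [rS, rS, rS]
  linear_combination (qExpand K a.1 (S28aux.deltaC K) * qExpand K c.1 (S28aux.deltaInvC K)) * h

theorem rB_self (a : TwoGauss.Dv N) : rB K N a a = 1 := by
  apply Subtype.ext
  change rS K a.1 a.1 = 1
  rw [rS, ← map_mul, S28aux.deltaC_mul_deltaInvC, map_one]

theorem rB_ne_zero (a b : TwoGauss.Dv N) : rB K N a b ≠ 0 := by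
  intro h
  have := rB_mul_rB K a b a
  rw [h, zero_mul, rB_self] at this
  exact zero_ne_one this

theorem rB_inv (a b : TwoGauss.Dv N) : (rB K N a b)⁻¹ = rB K N b a := by
  have := rB_mul_rB K a b a
  rw [rB_self] at this
  exact inv_eq_of_mul_eq_one_right this

/-! ### Integrality -/

open TwoGauss

variable {K}

/-- `j` in the function field -/
abbrev jB (K : Type*) [Field K] [Algebra ℚ K] (N : ℕ) [NeZero N] : FB K N := jdB K N ⟨1, one_dvd N⟩

theorem coe_jB : ((jB K N : FB K N) : LaurentSeries K) = jqModC K := by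
  rw [coe_jdB]
  exact qExpand_one_apply (R := K) _

theorem jB_ne_zero : jB K N ≠ 0 := by
  intro h
  have h1 := congrArg (fun x : FB K N => (x : LaurentSeries K)) h
  simp only [coe_jB] at h1
  have h2 := ModularCurve.coeff_jqModC_neg_one K
  rw [h1] at h2
  simp at h2

theorem coe_aeval_jB (P : K[X]) : ((Polynomial.aeval (jB K N) P : FB K N) : LaurentSeries K) =
    Polynomial.aeval (jqModC K) P := by
  have h : ((Polynomial.aeval (jB K N) P : FB K N) : LaurentSeries K) =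
      (FB K N).val (Polynomial.aeval (jB K N) P) := rfl
  rw [h, ← Polynomial.aeval_algHom_apply]
  congr 2
  exact coe_jB

theorem isIntegral_of_GB (ι : K →+* ℂ) {u : ℍ → ℂ} (hu : IsModFun (Gamma0 N) u) {c : ℕ}
    (hc : GB c u) (f : FB K N) (hf : LExp 1 u (coeffMap ι (f : LaurentSeries K))) :
    IsIntegral (Algebra.adjoin K {jB K N}) f ∧
      IsIntegral (Algebra.adjoin K {(jB K N)⁻¹}) (f * (jB K N)⁻¹ ^ c) := by
  obtain ⟨n, P, hn, h0, hd, h⟩ := exists_monic_bound ι hu hc hf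
  have h1 : ∑ k ∈ Finset.range (n + 1), Polynomial.aeval (jB K N) (P k) * f ^ (n - k) = 0 := by
    have h2 : (FB K N).val (∑ k ∈ Finset.range (n + 1),
        Polynomial.aeval (jB K N) (P k) * f ^ (n - k)) = 0 := by
      rw [map_sum, ← h]
      refine Finset.sum_congr rfl fun k _ => ?_
      rw [map_mul, map_pow]
      congr 1
      exact coe_aeval_jB (P k)
    exact (map_eq_zero_iff _ (FB K N).val.injective).mp h2
  exact ⟨isIntegral_of_rel h0 h1, isIntegral_inv_of_rel jB_ne_zero h0 hd h1⟩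

end Member

end Fermat.Agent.TriGauss
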