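import Mathlib
import Fermat.Agent.TriGauss.Units

/-!
# Values of the modular units under `e₁` and the Atkin--Lehner involutions
-/

set_option autoImplicit false

open UpperHalfPlane hiding I
open Complex Function ModularCurve MatrixGroups ModularForm CongruenceSubgroup
open Fermat.Agent.X0Emb Fermat.Agent.JLevelOne Fermat.Agent.TwoGauss
open scoped Polynomial Manifold Topology

noncomputable section

namespace Fermat.Agent.TriGauss

theorem denom_mk2 (a b c d : ℤ) (h : a * d - b * c = 1) (τ : ℍ) :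
    denom (mk2 a b c d h) τ = (c : ℂ) * τ + d := by
  have key : ∀ g : SL(2, ℤ), denom g τ = ((g 1 0 : ℤ) : ℂ) * τ + ((g 1 1 : ℤ) : ℂ) := by
    intro g; simp [denom]
  exact key _

section AL

variable {N Q m : ℕ}

theorem disc_aff_atkWQ (x y : ℤ) [NeZero Q] (h : x * Q - y * m = 1) (a b b' : ℕ)
    [NeZero (a * b)] [NeZero (a * b')] (ha : a ∣ m) (hb : b' * b = Q) (τ : ℍ) :
    discriminant (aff (a * b) 0 1 (atkW x y h τ)) =
      ((b' : ℂ) * (m * τ + 1)) ^ 12 * discriminant (aff (a * b') 0 1 τ) := by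
  obtain ⟨a', ha'⟩ := ha
  rw [aff_atkWQ x y h a b b' a' ha' hb, discriminant_smul,
    show (12 : ℤ) = ((12 : ℕ) : ℤ) from rfl, zpow_natCast]
  congr 2
  have h1 : (m : ℂ) = a * a' := by exact_mod_cast ha'
  rw [denom_mk2, coe_aff, h1]
  push_cast
  ring

theorem mτ_ne_zero (m : ℕ) (τ : ℍ) : (m : ℂ) * τ + 1 ≠ 0 := by
  have := mk2_denom_ne 1 0 m 1 (by ring) τ
  simpa using this

theorem rr_atkWQ (x y : ℤ) [NeZero Q] (h : x * Q - y * m = 1) (a b b' c e e' : ℕ)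
    [NeZero (a * b)] [NeZero (a * b')] [NeZero (c * e)] [NeZero (c * e')]
    (ha : a ∣ m) (hb : b' * b = Q) (hc : c ∣ m) (he : e' * e = Q) (τ : ℍ) :
    rr (a * b) (c * e) (atkW x y h τ) = ((b' : ℂ) / e') ^ 12 * rr (a * b') (c * e') τ := by
  rw [rr, disc_aff_atkWQ x y h a b b' ha hb, disc_aff_atkWQ x y h c e e' hc he, rr]
  have h1 := mτ_ne_zero m τ
  have h2 : (e' : ℂ) ≠ 0 := by
    intro h0
    have : (e' : ℕ) = 0 := by exact_mod_cast h0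
    exact (NeZero.ne (c * e')) (by rw [this, mul_zero])
  have h3 := discriminant_ne_zero (aff (c * e') 0 1 τ)
  field_simp

variable [NeZero N] {K : Type*} [Field K] [Algebra ℚ K]

theorem lexp_coe_rB (ι : K →+* ℂ) (a b : Dv N) :
    LExp 1 (rr a.1 b.1) (coeffMap ι ((rB K N a b : FB K N) : LaurentSeries K)) := by
  rw [coe_rB, coeffMap_rS]
  exact lexp_rr _ _

omit [Algebra ℚ K] in
theorem lexp_const_mul (ι : K →+* ℂ) (c : K) {f : ℍ → ℂ} {G : LaurentSeries K}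
    (h : LExp 1 f (coeffMap ι G)) :
    LExp 1 (fun τ => ι c * f τ) (coeffMap ι (algebraMap K (LaurentSeries K) c * G)) := by
  rw [map_mul, algebraMap_laurentSeries_eq_single, coeffMap_single]
  exact (LExp.const 1 (ι c)).mul h

/-- the Atkin--Lehner involution on the modular units -/
theorem atkinLehnerQ_rB (ι : K →+* ℂ) (hN : N = m * Q) (hQ : Q ≠ 0) (hc : Q.Coprime m)
    (w : FB K N →ₐ[K] FB K N) (hw : ∀ d : Dv N, w (jdB K _ d) = jdB K _ (swapQ N Q m hN hQ hc d))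
    {a b b' c e e' : ℕ} (ha : a ∣ m) (hb : b' * b = Q) (hc' : c ∣ m) (he : e' * e = Q)
    (h1 : a * b ∣ N) (h2 : a * b' ∣ N) (h3 : c * e ∣ N) (h4 : c * e' ∣ N) :
    w (rB K N ⟨a * b, h1⟩ ⟨c * e, h3⟩) =
      algebraMap K _ (((b' : K) / e') ^ 12) * rB K N ⟨a * b', h2⟩ ⟨c * e', h4⟩ := by
  have : NeZero Q := ⟨hQ⟩
  obtain ⟨x, y, h⟩ := exists_bezoutQ hc
  have : NeZero (a * b) := Dv.neZero (N := N) ⟨_, h1⟩
  have : NeZero (a * b') := Dv.neZero (N := N) ⟨_, h2⟩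
  have : NeZero (c * e) := Dv.neZero (N := N) ⟨_, h3⟩
  have : NeZero (c * e') := Dv.neZero (N := N) ⟨_, h4⟩
  apply Subtype.ext
  have key := emb_eq (N := N) (K := K) (ι := ι) (h := 1) one_pos (φ := atkW x y h)
    (S := fun d => jd K (swapQ N Q m hN hQ hc d).1) (fun d => by
      rw [coeffMap_jd]
      have h1 : (fun τ => jFun (aff d.1 0 1 (atkW x y h τ))) =
          fun τ => jFun (aff (swapQ N Q m hN hQ hc d).1 0 1 τ) :=
        funext fun τ => jFun_aff_swapQ hN hQ hc x y h d τ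
      rw [h1]
      exact lexp_jd _) ((FB K N).val.comp w) (fun d => by
        rw [AlgHom.comp_apply, hw]; rfl)
    (rB K N ⟨a * b, h1⟩ ⟨c * e, h3⟩) (lexp_coe_rB ι _ _)
    (g := algebraMap K (LaurentSeries K) (((b' : K) / e') ^ 12) *
      ((rB K N ⟨a * b', h2⟩ ⟨c * e', h4⟩ : FB K N) : LaurentSeries K)) (by
      have h5 : (fun τ => rr (a * b) (c * e) (atkW x y h τ)) =
          fun τ => ι (((b' : K) / e') ^ 12) * rr (a * b') (c * e') τ := by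
        funext τ
        rw [rr_atkWQ x y h a b b' c e e' ha hb hc' he]
        simp
      change LExp 1 (fun τ => rr (a * b) (c * e) (atkW x y h τ)) _
      rw [h5]
      exact lexp_const_mul ι _ (lexp_coe_rB ι ⟨a * b', h2⟩ ⟨c * e', h4⟩))
  exact key

end AL

/-! ### Values of `e₁` -/

section E1

variable {q m : ℕ}

theorem mk2_mem_Gamma0 (c : ℤ) (M : ℕ) (h : (M : ℤ) ∣ c) : mk2 1 0 c 1 (by ring) ∈ Gamma0 M := by
  rw [Gamma0_mem]
  have : (mk2 1 0 c 1 (by ring)) 1 0 = c := rfl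
  rw [this]
  exact (ZMod.intCast_zmod_eq_zero_iff_dvd _ _).mpr h

theorem disc_qq_lower [NeZero q] [NeZero (q * q)] (b : ℤ) (u : ℕ) (w : ℤ)
    (hb : (m : ℤ) * b * u + q * w = 1) (τ : ℍ) :
    discriminant (aff (q * q) 0 1 (mk2 1 0 (q * m * b) 1 (by ring) • τ)) =
      ((1 : ℂ) / q * ((q * m * b : ℂ) * τ + 1)) ^ 12 * discriminant (aff q u q τ) := by
  have h := disc_aff_smul (q * q) 0 1 q u q (mk2 1 0 (q * m * b) 1 (by ring))
    (mk2 q (-u) (m * b) w (by linear_combination hb))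
    (by simp [mk2]) (by simp [mk2]; ring) (by simp [mk2]; ring)
    (by simp [mk2]; linear_combination -hb) τ
  rw [h]
  simp [mk2]

theorem dvd_q : q ∣ m * q * q := dvd_mul_left q _

theorem dvd_qq : q * q ∣ m * q * q := by rw [mul_assoc]; exact dvd_mul_left _ _

variable [NeZero (m * q * q)]

/-- `Δ(τ)/Δ(qτ)` -/
def uu₁ (K : Type*) [Field K] [Algebra ℚ K] (q m : ℕ) [NeZero (m * q * q)] : FB K (m * q * q) :=
  rB K (m * q * q) ⟨1, one_dvd _⟩ ⟨q, dvd_q⟩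

/-- `Δ(qτ)/Δ(q²τ)` -/
def uu₂ (K : Type*) [Field K] [Algebra ℚ K] (q m : ℕ) [NeZero (m * q * q)] : FB K (m * q * q) :=
  rB K (m * q * q) ⟨q, dvd_q⟩ ⟨q * q, dvd_qq⟩

omit [NeZero (m * q * q)] in
theorem rr_lower [NeZero q] (a b : ℕ) [NeZero a] [NeZero b] (ha : a ∣ m * q) (hb : b ∣ m * q)
    (c : ℤ) (τ : ℍ) : rr a b (mk2 1 0 (q * m * c) 1 (by ring) • τ) = rr a b τ :=
  rr_inv_gamma0 ha hb _ (mk2_mem_Gamma0 _ _ ⟨c, by push_cast; ring⟩) τ

omit [NeZero (m * q * q)] in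
theorem rr_qq_lower [NeZero q] [NeZero (q * q)] (b : ℤ) (u : ℕ) (w : ℤ)
    (hb : (m : ℤ) * b * u + q * w = 1) (τ : ℍ) :
    rr q (q * q) (mk2 1 0 (q * m * b) 1 (by ring) • τ) =
      (q : ℂ) ^ 12 * (discriminant (aff q 0 1 τ) * (discriminant (aff q u q τ))⁻¹) := by
  have h1 := disc_gamma0 (N := m * q) (d := q) (dvd_mul_left _ _) (mk2 1 0 (q * m * b) 1 (by ring))
    (mk2_mem_Gamma0 _ _ ⟨b, by push_cast; ring⟩) τ
  have h0 : ((q * m * b : ℂ) * τ + 1) ≠ 0 := by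
    have := mk2_denom_ne 1 0 (q * m * b) 1 (by ring) τ
    simpa using this
  have hq0 : (q : ℂ) ≠ 0 := by exact_mod_cast NeZero.ne q
  rw [rr, disc_qq_lower b u w hb, h1]
  have h2 : (((mk2 1 0 (q * m * b) 1 (by ring)) 1 0 : ℤ) : ℂ) * τ +
      (((mk2 1 0 (q * m * b) 1 (by ring)) 1 1 : ℤ) : ℂ) = (q * m * b : ℂ) * τ + 1 := by
    simp [mk2]
  rw [h2]
  have h3 := discriminant_ne_zero (aff q u q τ)
  field_simp

theorem lexp_disc_inv_tw [NeZero q] (u : ℕ) : LExp 1 (fun τ => (discriminant (aff q u q τ))⁻¹)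
    (twist (zetaU u q) (S28aux.deltaInvC ℂ)) := by
  have h := X1Char.lexp_discriminant_inv.aff q u q 1 1 (by ring)
  simpa [qExpand_one_apply] using h

omit [NeZero (m * q * q)] in
theorem lexp_rr_lower [NeZero q] {K : Type*} [Field K] [Algebra ℚ K] (ι : K →+* ℂ) (b : ℤ) :
    LExp 1 (fun τ => rr 1 q (mk2 1 0 (q * m * b) 1 (by ring) • τ)) (coeffMap ι (rS K 1 q)) := by
  have h4 : (fun τ : ℍ => rr 1 q (mk2 1 0 (q * m * b) 1 (by ring) • τ)) = rr 1 q :=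
    funext fun τ => rr_lower (m := m) 1 q (one_dvd _) (dvd_mul_left _ _) b τ
  rw [h4, coeffMap_rS]
  exact lexp_rr 1 q

omit [NeZero (m * q * q)] in
theorem lexp_rr_qq_lower [NeZero q] [NeZero (q * q)] {K : Type*} [Field K] [Algebra ℚ K]
    (ι : K →+* ℂ) (ζ : Kˣ) (b : ℤ) (u : ℕ) (w : ℤ) (hb : (m : ℤ) * b * u + q * w = 1)
    (h2 : zetaU u q = Units.map (ι : K →* ℂ) ζ) :
    LExp 1 (fun τ => rr q (q * q) (mk2 1 0 (q * m * b) 1 (by ring) • τ))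
      (coeffMap ι (algebraMap K _ ((q : K) ^ 12) *
      (qExpand K q (S28aux.deltaC K) * twist ζ (S28aux.deltaInvC K)))) := by
  have h4 : (fun τ : ℍ => rr q (q * q) (mk2 1 0 (q * m * b) 1 (by ring) • τ)) = fun τ =>
      ι ((q : K) ^ 12) * (discriminant (aff q 0 1 τ) * (discriminant (aff q u q τ))⁻¹) := by
    funext τ
    rw [rr_qq_lower b u w hb]; simp
  rw [h4]
  refine lexp_const_mul ι _ ?_
  rw [map_mul, coeffMap_qExpand, S28aux.coeffMap_deltaC, twist_coeffMap,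
    S28aux.coeffMap_deltaInvC, ← h2]
  have h5 : LExp 1 (fun τ => discriminant (aff q 0 1 τ)) (qExpand ℂ q (S28aux.deltaC ℂ)) := by
    have h := lexp_disc.aff q 0 1 q 1 (by ring)
    rw [ModFun.zetaU_zero, ModFun.twist_one, Nat.cast_one] at h
    exact h
  exact h5.mul (lexp_disc_inv_tw u)

theorem e1_uu₁ {K : Type*} [Field K] [Algebra ℚ K] (ι : K →+* ℂ) (hq : q.Prime)
    (hm : ¬ q ∣ m) (ζ : Kˣ) (hζ : IsPrimitiveRoot ζ q)
    (e : FB K (m * q * q) →ₐ[K] LaurentSeries K) (he : ∀ d, e (jdB K _ d) = S1 ζ d) [NeZero q] :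
    e (uu₁ K q m) = rS K 1 q := by
  have h1 : IsPrimitiveRoot (Units.map (ι : K →* ℂ) ζ) q := by
    refine hζ.map_of_injective ?_
    exact Units.map_injective ι.injective
  obtain ⟨u, hu, h2⟩ := exists_zetaU hq h1
  obtain ⟨b, w, hb⟩ := exists_bezout_sub hq hm hu
  have h3 := lexp_coeffMap_S1 ι hq hm ζ b u w hb h2
  exact emb_eq (ι := ι) (φ := fun τ => mk2 1 0 (q * m * b) 1 (by ring) • τ) one_pos h3 e he
    (uu₁ K q m) (F := rr 1 q) (lexp_coe_rB ι ⟨1, one_dvd _⟩ ⟨q, dvd_q⟩)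
    (lexp_rr_lower (m := m) ι b)

theorem e1_uu₂ {K : Type*} [Field K] [Algebra ℚ K] (ι : K →+* ℂ) (hq : q.Prime)
    (hm : ¬ q ∣ m) (ζ : Kˣ) (hζ : IsPrimitiveRoot ζ q)
    (e : FB K (m * q * q) →ₐ[K] LaurentSeries K) (he : ∀ d, e (jdB K _ d) = S1 ζ d) [NeZero q] :
    e (uu₂ K q m) = algebraMap K _ ((q : K) ^ 12) *
      (qExpand K q (S28aux.deltaC K) * twist ζ (S28aux.deltaInvC K)) := by
  have : NeZero (q * q) := ⟨Nat.mul_ne_zero hq.ne_zero hq.ne_zero⟩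
  have h1 : IsPrimitiveRoot (Units.map (ι : K →* ℂ) ζ) q := by
    refine hζ.map_of_injective ?_
    exact Units.map_injective ι.injective
  obtain ⟨u, hu, h2⟩ := exists_zetaU hq h1
  obtain ⟨b, w, hb⟩ := exists_bezout_sub hq hm hu
  have h3 := lexp_coeffMap_S1 ι hq hm ζ b u w hb h2
  exact emb_eq (ι := ι) (φ := fun τ => mk2 1 0 (q * m * b) 1 (by ring) • τ) one_pos h3 e he
    (uu₂ K q m) (F := rr q (q * q)) (lexp_coe_rB ι ⟨q, dvd_q⟩ ⟨q * q, dvd_qq⟩)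
    (lexp_rr_qq_lower (m := m) ι ζ b u w hb h2)

/-! ### Integrality and Atkin--Lehner -/

omit [NeZero (m * q * q)] in
theorem isModFun_mul {Γ : Subgroup SL(2, ℤ)} {u v : ℍ → ℂ} (hu : ModFun.IsModFun Γ u)
    (hv : ModFun.IsModFun Γ v) : ModFun.IsModFun Γ (fun τ => u τ * v τ) where
  inv γ hγ τ := by rw [hu.inv γ hγ, hv.inv γ hγ]
  conj γ := mul_mem (hu.conj γ) (hv.conj γ)

variable {K : Type*} [Field K] [Algebra ℚ K]

theorem uu₁_inv : (uu₁ K q m)⁻¹ = rB K (m * q * q) ⟨q, dvd_q⟩ ⟨1, one_dvd _⟩ := rB_inv K _ _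

theorem uu₂_inv : (uu₂ K q m)⁻¹ = rB K (m * q * q) ⟨q * q, dvd_qq⟩ ⟨q, dvd_q⟩ := rB_inv K _ _

theorem uu₁_ne_zero : uu₁ K q m ≠ 0 := rB_ne_zero K _ _

theorem uu₂_ne_zero : uu₂ K q m ≠ 0 := rB_ne_zero K _ _

theorem isIntegral_uu₁ (ι : K →+* ℂ) (hq : q.Prime) :
    IsIntegral (Algebra.adjoin K {jB K (m * q * q)}) (uu₁ K q m) ∧
    IsIntegral (Algebra.adjoin K {(jB K (m * q * q))⁻¹})
      (uu₁ K q m * (jB K (m * q * q))⁻¹ ^ (q - 1)) := by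
  have : NeZero q := ⟨hq.ne_zero⟩
  have : NeZero (q * q) := ⟨Nat.mul_ne_zero hq.ne_zero hq.ne_zero⟩
  exact isIntegral_of_GB ι (isModFun_rr (one_dvd _) (dvd_q (m := m))) (GB_u₁ hq) _
    (lexp_coe_rB ι ⟨1, one_dvd _⟩ ⟨q, dvd_q⟩)

theorem isIntegral_uu₁_inv (ι : K →+* ℂ) (hq : q.Prime) :
    IsIntegral (Algebra.adjoin K {jB K (m * q * q)}) (uu₁ K q m)⁻¹ ∧
    IsIntegral (Algebra.adjoin K {(jB K (m * q * q))⁻¹})
      ((uu₁ K q m)⁻¹ * (jB K (m * q * q))⁻¹ ^ 1) := by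
  have : NeZero q := ⟨hq.ne_zero⟩
  have : NeZero (q * q) := ⟨Nat.mul_ne_zero hq.ne_zero hq.ne_zero⟩
  rw [uu₁_inv]
  exact isIntegral_of_GB ι (isModFun_rr (dvd_q (m := m)) (one_dvd _)) (GB_u₁_inv hq) _
    (lexp_coe_rB ι ⟨q, dvd_q⟩ ⟨1, one_dvd _⟩)

theorem isIntegral_uu₂ (ι : K →+* ℂ) (hq : q.Prime) :
    IsIntegral (Algebra.adjoin K {jB K (m * q * q)}) (uu₂ K q m) ∧
    IsIntegral (Algebra.adjoin K {(jB K (m * q * q))⁻¹})
      (uu₂ K q m * (jB K (m * q * q))⁻¹ ^ (q * q - q)) := by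
  have : NeZero q := ⟨hq.ne_zero⟩
  have : NeZero (q * q) := ⟨Nat.mul_ne_zero hq.ne_zero hq.ne_zero⟩
  exact isIntegral_of_GB ι (isModFun_rr (dvd_q (m := m)) (dvd_qq (m := m))) (GB_u₂ hq) _
    (lexp_coe_rB ι ⟨q, dvd_q⟩ ⟨q * q, dvd_qq⟩)

theorem isIntegral_uu₂_inv (ι : K →+* ℂ) (hq : q.Prime) :
    IsIntegral (Algebra.adjoin K {jB K (m * q * q)}) (uu₂ K q m)⁻¹ ∧
    IsIntegral (Algebra.adjoin K {(jB K (m * q * q))⁻¹})
      ((uu₂ K q m)⁻¹ * (jB K (m * q * q))⁻¹ ^ (q - 1)) := by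
  have : NeZero q := ⟨hq.ne_zero⟩
  have : NeZero (q * q) := ⟨Nat.mul_ne_zero hq.ne_zero hq.ne_zero⟩
  rw [uu₂_inv]
  exact isIntegral_of_GB ι (isModFun_rr (dvd_qq (m := m)) (dvd_q (m := m))) (GB_u₂_inv hq) _
    (lexp_coe_rB ι ⟨q * q, dvd_qq⟩ ⟨q, dvd_q⟩)

theorem isIntegral_U_inv (ι : K →+* ℂ) (hq : q.Prime) :
    IsIntegral (Algebra.adjoin K {jB K (m * q * q)}) (uu₁ K q m / uu₂ K q m) ∧
    IsIntegral (Algebra.adjoin K {(jB K (m * q * q))⁻¹})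
      (uu₁ K q m / uu₂ K q m * (jB K (m * q * q))⁻¹ ^ (2 * (q - 1))) := by
  have : NeZero q := ⟨hq.ne_zero⟩
  have : NeZero (q * q) := ⟨Nat.mul_ne_zero hq.ne_zero hq.ne_zero⟩
  have h2 := GB_U_inv hq
  have h1 : ModFun.IsModFun (Gamma0 (m * q * q)) (fun τ => rr 1 q τ / rr q (q * q) τ) := by
    have e1 := isModFun_rr (N := m * q * q) (one_dvd _) (dvd_q (m := m) (q := q))
    have e2 := isModFun_rr (N := m * q * q) (dvd_qq (m := m) (q := q)) (dvd_q (m := m) (q := q))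
    have e3 : (fun τ => rr 1 q τ / rr q (q * q) τ) = fun τ => rr 1 q τ * rr (q * q) q τ := by
      funext τ
      rw [div_eq_mul_inv, rr_inv]
    rw [e3]
    exact isModFun_mul e1 e2
  refine isIntegral_of_GB ι h1 h2 _ ?_
  have e3 : (fun τ => rr 1 q τ / rr q (q * q) τ) = fun τ => rr 1 q τ * rr (q * q) q τ := by
    funext τ
    rw [div_eq_mul_inv, rr_inv]
  rw [e3, div_eq_mul_inv, uu₂_inv]
  have h5 := (lexp_coe_rB (K := K) (N := m * q * q) ι ⟨1, one_dvd _⟩ ⟨q, dvd_q⟩).mul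
    (lexp_coe_rB (K := K) (N := m * q * q) ι ⟨q * q, dvd_qq⟩ ⟨q, dvd_q⟩)
  rw [← map_mul] at h5
  exact h5

/-- `w_{q²} u₁ = q¹²/u₂` -/
theorem w_uu₁ (ι : K →+* ℂ) (hq : q.Prime) (hN : m * q * q = m * (q * q))
    (hQ : q * q ≠ 0) (hc : (q * q).Coprime m) (w : FB K (m * q * q) →ₐ[K] FB K (m * q * q))
    (hw : ∀ d : Dv (m * q * q), w (jdB K _ d) = jdB K _ (swapQ _ (q * q) m hN hQ hc d)) :
    w (uu₁ K q m) = algebraMap K _ ((q : K) ^ 12) / uu₂ K q m := by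
  have : CharZero K := algebraRat.charZero K
  have hq0 : (q : K) ≠ 0 := by exact_mod_cast hq.ne_zero
  have h := atkinLehnerQ_rB ι hN hQ hc w hw (a := 1) (b := 1) (b' := q * q) (c := 1) (e := q)
    (e' := q) (one_dvd _) (by ring) (one_dvd _) rfl (one_dvd _) (by rw [one_mul]; exact dvd_qq)
    (by rw [one_mul]; exact dvd_q) (by rw [one_mul]; exact dvd_q)
  rw [div_eq_mul_inv, uu₂_inv]
  simp only [one_mul] at h
  have h1 : ((q * q : ℕ) : K) / (q : K) = q := by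
    push_cast; field_simp
  rw [h1] at h
  exact h

/-- `w_{q²} u₂ = q¹²/u₁` -/
theorem w_uu₂ (ι : K →+* ℂ) (hN : m * q * q = m * (q * q))
    (hQ : q * q ≠ 0) (hc : (q * q).Coprime m) (w : FB K (m * q * q) →ₐ[K] FB K (m * q * q))
    (hw : ∀ d : Dv (m * q * q), w (jdB K _ d) = jdB K _ (swapQ _ (q * q) m hN hQ hc d)) :
    w (uu₂ K q m) = algebraMap K _ ((q : K) ^ 12) / uu₁ K q m := by
  have h := atkinLehnerQ_rB ι hN hQ hc w hw (a := 1) (b := q) (b' := q) (c := 1) (e := q * q)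
    (e' := 1) (one_dvd _) rfl (one_dvd _) (by ring) (by rw [one_mul]; exact dvd_q)
    (by rw [one_mul]; exact dvd_q) (by rw [one_mul]; exact dvd_qq) (one_dvd _)
  rw [div_eq_mul_inv, uu₁_inv]
  simp only [one_mul, Nat.cast_one, div_one] at h
  exact h

end E1

end Fermat.Agent.TriGauss
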