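import Mathlib
import Fermat.Agent.TriGauss.Values
import Fermat.Agent.TwoGauss.ModPoly

/-!
# The functions `Δ(q²τ)/Δ(τ)` and `j(q²τ) Δ(q²τ)/Δ(τ)` at the cusps
-/

set_option autoImplicit false

open UpperHalfPlane hiding I
open Complex Function ModularCurve MatrixGroups ModularForm CongruenceSubgroup Filter Asymptotics
open Fermat.Agent.X0Emb Fermat.Agent.JLevelOne
open scoped Polynomial Manifold Topology

noncomputable section

namespace Fermat.Agent.TriGauss

theorem jFun_bigO : jFun =O[atImInfty] gr (-1) := by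
  have h1 : (fun τ : ℍ => jFun τ * Periodic.qParam 1 (τ : ℂ)) =O[atImInfty] (fun _ => (1 : ℝ)) :=
    jFun_mul_q_bdd
  have h3 : (fun τ : ℍ => Periodic.qParam 1 (τ : ℂ)) =Θ[atImInfty] gr 1 := by
    refine IsTheta.of_norm_eventuallyEq (Eventually.of_forall fun τ => ?_)
    change ‖_‖ = gr 1 τ
    rw [Fermat.Agent.X0Deg.norm_q, gr]
    congr 1; ring
  have h4 := h1.mul (h3.inv).1
  simp only [one_mul] at h4
  rw [gr_inv] at h4
  have h5 : (fun τ : ℍ => jFun τ * Periodic.qParam 1 (τ : ℂ) * (Periodic.qParam 1 (τ : ℂ))⁻¹) =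
      jFun := by
    funext τ
    rw [mul_assoc, mul_inv_cancel₀, mul_one]
    exact qParam_ne _ _
  rw [h5] at h4
  exact h4

theorem GB_of_bigO {F : ℍ → ℂ} {c : ℕ}
    (h : ∀ σ : SL(2, ℤ), (fun τ => F (σ • τ)) =O[atImInfty] gr (-(c : ℝ))) : GB c F := by
  intro σ
  have h1 := (h σ).mul (disc_theta.pow c).1
  have h2 : (fun τ => gr (-(c : ℝ)) τ * gr 1 τ ^ c) = fun _ => (1 : ℝ) := by
    funext τ
    rw [gr, gr, ← Real.exp_nat_mul, ← Real.exp_add]
    rw [show -(2 * Real.pi * -(c : ℝ) * τ.im) + c * -(2 * Real.pi * 1 * τ.im) = 0 by ring,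
      Real.exp_zero]
  rw [h2] at h1
  exact h1

theorem gr_mono {x y : ℝ} (h : x ≤ y) : gr y =O[atImInfty] gr x := by
  refine IsBigO.of_bound 1 (Eventually.of_forall fun τ => ?_)
  rw [gr, gr, Real.norm_eq_abs, Real.norm_eq_abs, abs_of_pos (Real.exp_pos _),
    abs_of_pos (Real.exp_pos _), one_mul, Real.exp_le_exp]
  have h1 : 0 ≤ 2 * Real.pi * τ.im := by
    have := τ.im_pos
    have := Real.pi_pos
    positivity
  nlinarith

theorem exists_theta_j (D : ℕ) [NeZero D] (σ : SL(2, ℤ)) : ∃ x : ℝ, 0 < x ∧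
    (fun τ => rr D 1 (σ • τ)) =Θ[atImInfty] gr (x - 1) ∧
    (fun τ => jFun (aff D 0 1 (σ • τ))) =O[atImInfty] gr (-x) := by
  obtain ⟨a', b', d', ha', hd', g, h1, -, h2⟩ := exists_hermite D σ
  have h3 : (0 : ℝ) < a' := by exact_mod_cast Nat.pos_of_ne_zero (NeZero.ne a')
  have h4 : (0 : ℝ) < d' := by exact_mod_cast Nat.pos_of_ne_zero (NeZero.ne d')
  refine ⟨a' / d', div_pos h3 h4, ?_, ?_⟩
  · have h5 : (fun τ : ℍ => rr D 1 (σ • τ)) = fun τ =>
        discriminant (aff D 0 1 (σ • τ)) / discriminant (σ • τ) := by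
      funext τ; rw [rr, aff_one]
    rw [h5]
    refine theta_ratio σ g _ (div_pos h3 h4) h2 (fun τ => im_aff a' b' d' τ) ?_
    simpa using theta_comp_aff a' b' d' disc_theta
  · have h5 : (fun τ : ℍ => jFun (aff D 0 1 (σ • τ))) = fun τ => jFun (aff a' b' d' τ) := by
      funext τ; rw [h2, jFun_smul]
    rw [h5]
    have h6 := jFun_bigO.comp_tendsto (ModFun.tendsto_aff a' b' d')
    have h7 : (gr (-1) ∘ aff a' b' d') = gr (-(a' / d' : ℝ)) := by
      have := gr_aff a' b' d' (-1)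
      rw [show (a' : ℝ) / d' * -1 = -(a' / d') by ring] at this
      exact this
    rw [h7] at h6
    exact h6

theorem GB_W (D : ℕ) [NeZero D] : GB 1 (rr D 1) := by
  refine GB_of_theta fun σ => ?_
  obtain ⟨x, hx, h1, -⟩ := exists_theta_j D σ
  refine ⟨_, ?_, h1⟩
  push_cast; linarith

theorem GB_Y (D : ℕ) [NeZero D] : GB 1 (fun τ => rr D 1 τ * jFun (aff D 0 1 τ)) := by
  refine GB_of_bigO fun σ => ?_
  obtain ⟨x, hx, h1, h2⟩ := exists_theta_j D σ
  have h3 := h1.1.mul h2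
  rw [gr_mul] at h3
  rwa [show x - 1 + -x = -((1 : ℕ) : ℝ) by push_cast; ring] at h3

theorem isModFun_Y {N D : ℕ} [NeZero D] (hD : D ∣ N) :
    ModFun.IsModFun (Gamma0 N) (fun τ => rr D 1 τ * jFun (aff D 0 1 τ)) :=
  isModFun_mul (isModFun_rr hD (one_dvd _)) (ModFun.isModFun_jd hD)

end Fermat.Agent.TriGauss
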