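import Mathlib
import Fermat.Agent.TriGauss.Cusps
import Fermat.Agent.TriVal.Base

/-!
# Modular units in `modularFunctionFieldFullC`

The results of `Units`, `Values`, `Cusps` for the function field `modularFunctionFieldFullC K N`.
-/

set_option autoImplicit false

open UpperHalfPlane hiding I
open Complex Function ModularCurve MatrixGroups ModularForm CongruenceSubgroup
open Fermat.Agent.X0Emb Fermat.Agent.JLevelOne
open scoped Polynomial Manifold Topology

noncomputable section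

namespace Fermat.Agent.TriGauss

open Fermat.Agent.TwoGauss (Dv FB jdB laurentBaseChange_full)

theorem coe_equivOfEq {F E : Type*} [Field F] [Field E] [Algebra F E]
    {S T : IntermediateField F E} (h : S = T) (x : S) :
    ((IntermediateField.equivOfEq h x : T) : E) = x := by
  subst h; rfl

section Transport

variable (K : Type*) [Field K] [Algebra ℚ K] (N : ℕ)

/-- the two models of the function field of `X₀(N)` over `K` -/
def fullEquiv : FB K N ≃ₐ[K] modularFunctionFieldFullC K N :=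
  IntermediateField.equivOfEq (laurentBaseChange_full K N)

@[simp] theorem coe_fullEquiv (x : FB K N) : ((fullEquiv K N x : modularFunctionFieldFullC K N) :
    LaurentSeries K) = x := coe_equivOfEq _ x

@[simp] theorem coe_fullEquiv_symm (x : modularFunctionFieldFullC K N) :
    (((fullEquiv K N).symm x : FB K N) : LaurentSeries K) = x := by
  have h := coe_fullEquiv K N ((fullEquiv K N).symm x)
  rw [AlgEquiv.apply_symm_apply] at h
  exact h.symm

variable [NeZero N]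

@[simp] theorem fullEquiv_jdB (d : Dv N) :
    fullEquiv K N (jdB K N d) = TriVal.jd K N d.1 d.2 :=
  Subtype.ext (by rw [coe_fullEquiv, TwoGauss.coe_jdB, TriVal.coe_jd]; rfl)

@[simp] theorem fullEquiv_symm_jd (d : Dv N) :
    (fullEquiv K N).symm (TriVal.jd K N d.1 d.2) = jdB K N d := by
  rw [AlgEquiv.symm_apply_eq, fullEquiv_jdB]

variable {N} in
/-- `Δ(aτ)/Δ(bτ)` -/
def rF (a b : Dv N) : modularFunctionFieldFullC K N := fullEquiv K N (rB K N a b)

@[simp] theorem coe_rF (a b : Dv N) : (rF K a b : LaurentSeries K) = rS K a.1 b.1 := by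
  rw [rF, coe_fullEquiv, coe_rB]

theorem rF_inv (a b : Dv N) : (rF K a b)⁻¹ = rF K b a := by
  rw [rF, rF, ← map_inv₀, rB_inv]

theorem rF_mul_rF (a b c : Dv N) : rF K a b * rF K b c = rF K a c := by
  rw [rF, rF, rF, ← map_mul, rB_mul_rB]

theorem rF_ne_zero (a b : Dv N) : rF K a b ≠ 0 := by
  rw [rF]
  exact (map_ne_zero_iff _ (fullEquiv K N).injective).mpr (rB_ne_zero K a b)

theorem bc_rF {L : Type*} [Field L] [Algebra ℚ L] [Algebra L K] (a b : Dv N) :
    TriVal.bc L K N (rF L a b) = rF K a b := by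
  apply Subtype.ext
  rw [TriVal.coe_bc, coe_rF, coe_rF, coeffMap_rS]

/-- `j` -/
abbrev jF : modularFunctionFieldFullC K N := TriVal.jd K N 1 (one_dvd N)

theorem fullEquiv_jB : fullEquiv K N (jB K N) = jF K N := fullEquiv_jdB K N ⟨1, one_dvd N⟩

omit [Algebra ℚ K] in
theorem map_adjoin_singleton {A B : Type*} [CommRing A] [CommRing B] [Algebra K A] [Algebra K B]
    (e : A ≃ₐ[K] B) (x y : A) (h : IsIntegral (Algebra.adjoin K {x}) y) :
    IsIntegral (Algebra.adjoin K {e x}) (e y) := by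
  have h1 : (Algebra.adjoin K {x}).map (e : A →ₐ[K] B) = Algebra.adjoin K {e x} := by
    rw [AlgHom.map_adjoin, Set.image_singleton]; rfl
  obtain ⟨p, hp, hp0⟩ := h
  let φ : Algebra.adjoin K {x} →+* Algebra.adjoin K {e x} :=
    ((e : A →+* B).comp (algebraMap (Algebra.adjoin K {x}) A)).codRestrict
      (Algebra.adjoin K {e x}) (fun z => by
        rw [← h1]
        exact ⟨z, z.2, rfl⟩)
  refine ⟨p.map φ, hp.map φ, ?_⟩
  rw [Polynomial.eval₂_map]
  have h2 : (algebraMap (Algebra.adjoin K {e x}) B).comp φ =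
      (e : A →+* B).comp (algebraMap (Algebra.adjoin K {x}) A) := by
    ext z; rfl
  rw [h2]
  have h3 : ((e : A →+* B) y) = e y := rfl
  rw [← h3, ← Polynomial.hom_eval₂, hp0, map_zero]

variable {K N}

/-- the general criterion -/
theorem isIntegral_of_GB_full (ι : K →+* ℂ) {u : ℍ → ℂ} (hu : ModFun.IsModFun (Gamma0 N) u)
    {c : ℕ} (hc : GB c u) (f : modularFunctionFieldFullC K N)
    (hf : LExp 1 u (coeffMap ι (f : LaurentSeries K))) :
    IsIntegral (Algebra.adjoin K {jF K N}) f ∧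
      IsIntegral (Algebra.adjoin K {(jF K N)⁻¹}) (f * (jF K N)⁻¹ ^ c) := by
  have h := isIntegral_of_GB ι hu hc ((fullEquiv K N).symm f) (by rwa [coe_fullEquiv_symm])
  have h1 := map_adjoin_singleton K (fullEquiv K N) _ _ h.1
  have h2 := map_adjoin_singleton K (fullEquiv K N) _ _ h.2
  rw [AlgEquiv.apply_symm_apply, fullEquiv_jB] at h1
  rw [map_mul, map_pow, map_inv₀, AlgEquiv.apply_symm_apply, fullEquiv_jB] at h2
  exact ⟨h1, h2⟩

end Transport

section Level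

variable (K : Type*) [Field K] [Algebra ℚ K] (q m : ℕ) [NeZero (m * q * q)]

/-- `Δ(τ)/Δ(qτ)` -/
def u₁ : modularFunctionFieldFullC K (m * q * q) := rF K ⟨1, one_dvd _⟩ ⟨q, dvd_q⟩

/-- `Δ(qτ)/Δ(q²τ)` -/
def u₂ : modularFunctionFieldFullC K (m * q * q) := rF K ⟨q, dvd_q⟩ ⟨q * q, dvd_qq⟩

/-- `j(q²τ)` -/
def jq2 : modularFunctionFieldFullC K (m * q * q) :=
  have : NeZero (q * q) := Dv.neZero (N := m * q * q) ⟨q * q, dvd_qq⟩
  TriVal.jd K (m * q * q) (q * q) dvd_qq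

/-- `j(q²τ) - j(τ)` -/
def δF : modularFunctionFieldFullC K (m * q * q) := jq2 K q m - jF K (m * q * q)

theorem fullEquiv_uu₁ : fullEquiv K _ (uu₁ K q m) = u₁ K q m := rfl

theorem fullEquiv_uu₂ : fullEquiv K _ (uu₂ K q m) = u₂ K q m := rfl

theorem fullEquiv_jq2 : fullEquiv K _ (jdB K (m * q * q) ⟨q * q, dvd_qq⟩) = jq2 K q m :=
  fullEquiv_jdB K _ ⟨q * q, dvd_qq⟩

theorem jF_ne_zero : jF K (m * q * q) ≠ 0 := by
  rw [← fullEquiv_jB]
  exact (map_ne_zero_iff _ (fullEquiv K _).injective).mpr jB_ne_zero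

omit [Algebra ℚ K] in
theorem jq2_ne_zero : jq2 K q m ≠ 0 := by
  have : NeZero (q * q) := Dv.neZero (N := m * q * q) ⟨q * q, dvd_qq⟩
  intro h
  have h1 := congrArg (fun x : modularFunctionFieldFullC K (m * q * q) => (x : LaurentSeries K)) h
  simp only [jq2, TriVal.coe_jd] at h1
  have h2 := ModularCurve.coeff_jqModC_neg_one K
  rw [← qExpand_coeff_mul (R := K) (q * q), h1] at h2
  simp at h2

variable {K} {q m}

theorem u₁_ne_zero : u₁ K q m ≠ 0 := rF_ne_zero K _ _ _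

theorem u₂_ne_zero : u₂ K q m ≠ 0 := rF_ne_zero K _ _ _

theorem bc_u₁ {L : Type*} [Field L] [Algebra ℚ L] [Algebra L K] :
    TriVal.bc L K _ (u₁ L q m) = u₁ K q m := bc_rF K _ _ _

theorem bc_u₂ {L : Type*} [Field L] [Algebra ℚ L] [Algebra L K] :
    TriVal.bc L K _ (u₂ L q m) = u₂ K q m := bc_rF K _ _ _

omit [Algebra ℚ K] in
theorem bc_jq2 {L : Type*} [Field L] [Algebra L K] :
    TriVal.bc L K _ (jq2 L q m) = jq2 K q m := by
  have : NeZero (q * q) := Dv.neZero (N := m * q * q) ⟨q * q, dvd_qq⟩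
  exact TriVal.bc_jd L K _ _ dvd_qq

omit [Algebra ℚ K] in
theorem bc_δF {L : Type*} [Field L] [Algebra L K] :
    TriVal.bc L K _ (δF L q m) = δF K q m := by
  rw [δF, map_sub, bc_jq2, TriVal.bc_jd]; rfl

/-! ### Integrality -/

theorem isIntegral_u₁ (ι : K →+* ℂ) (hq : q.Prime) :
    IsIntegral (Algebra.adjoin K {jF K (m * q * q)}) (u₁ K q m) := by
  have h := map_adjoin_singleton K (fullEquiv K _) _ _ (isIntegral_uu₁ (m := m) ι hq).1
  rwa [fullEquiv_uu₁, fullEquiv_jB] at h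

theorem isIntegral_u₁_inv (ι : K →+* ℂ) (hq : q.Prime) :
    IsIntegral (Algebra.adjoin K {jF K (m * q * q)}) (u₁ K q m)⁻¹ := by
  have h := map_adjoin_singleton K (fullEquiv K _) _ _ (isIntegral_uu₁_inv (m := m) ι hq).1
  rwa [map_inv₀, fullEquiv_uu₁, fullEquiv_jB] at h

theorem isIntegral_u₂ (ι : K →+* ℂ) (hq : q.Prime) :
    IsIntegral (Algebra.adjoin K {jF K (m * q * q)}) (u₂ K q m) := by
  have h := map_adjoin_singleton K (fullEquiv K _) _ _ (isIntegral_uu₂ (m := m) ι hq).1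
  rwa [fullEquiv_uu₂, fullEquiv_jB] at h

theorem isIntegral_u₂_inv (ι : K →+* ℂ) (hq : q.Prime) :
    IsIntegral (Algebra.adjoin K {jF K (m * q * q)}) (u₂ K q m)⁻¹ := by
  have h := map_adjoin_singleton K (fullEquiv K _) _ _ (isIntegral_uu₂_inv (m := m) ι hq).1
  rwa [map_inv₀, fullEquiv_uu₂, fullEquiv_jB] at h

/-- `u₁ j^{-(q-1)}` is integral over `K[1/j]` -/
theorem isIntegral_u₁_cusp (ι : K →+* ℂ) (hq : q.Prime) :
    IsIntegral (Algebra.adjoin K {(jF K (m * q * q))⁻¹})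
      (u₁ K q m * (jF K (m * q * q))⁻¹ ^ (q - 1)) := by
  have h := map_adjoin_singleton K (fullEquiv K _) _ _ (isIntegral_uu₁ (m := m) ι hq).2
  rwa [map_mul, map_pow, map_inv₀, fullEquiv_uu₁, fullEquiv_jB] at h

/-- `u₂ j^{-(q²-q)}` is integral over `K[1/j]` -/
theorem isIntegral_u₂_cusp (ι : K →+* ℂ) (hq : q.Prime) :
    IsIntegral (Algebra.adjoin K {(jF K (m * q * q))⁻¹})
      (u₂ K q m * (jF K (m * q * q))⁻¹ ^ (q ^ 2 - q)) := by
  have h := map_adjoin_singleton K (fullEquiv K _) _ _ (isIntegral_uu₂ (m := m) ι hq).2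
  rwa [map_mul, map_pow, map_inv₀, fullEquiv_uu₂, fullEquiv_jB, ← sq] at h

/-- `u₁⁻¹ j⁻¹` is integral over `K[1/j]` -/
theorem isIntegral_u₁_inv_cusp (ι : K →+* ℂ) (hq : q.Prime) :
    IsIntegral (Algebra.adjoin K {(jF K (m * q * q))⁻¹})
      ((u₁ K q m)⁻¹ * (jF K (m * q * q))⁻¹) := by
  have h := map_adjoin_singleton K (fullEquiv K _) _ _ (isIntegral_uu₁_inv (m := m) ι hq).2
  rwa [map_mul, map_pow, map_inv₀, map_inv₀, fullEquiv_uu₁, fullEquiv_jB, pow_one] at h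

/-- `u₂⁻¹ j^{-(q-1)}` is integral over `K[1/j]` -/
theorem isIntegral_u₂_inv_cusp (ι : K →+* ℂ) (hq : q.Prime) :
    IsIntegral (Algebra.adjoin K {(jF K (m * q * q))⁻¹})
      ((u₂ K q m)⁻¹ * (jF K (m * q * q))⁻¹ ^ (q - 1)) := by
  have h := map_adjoin_singleton K (fullEquiv K _) _ _ (isIntegral_uu₂_inv (m := m) ι hq).2
  rwa [map_mul, map_pow, map_inv₀, map_inv₀, fullEquiv_uu₂, fullEquiv_jB] at h

/-- `(u₁/u₂) j^{-2(q-1)}` is integral over `K[1/j]` -/
theorem isIntegral_U_inv_cusp (ι : K →+* ℂ) (hq : q.Prime) :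
    IsIntegral (Algebra.adjoin K {(jF K (m * q * q))⁻¹})
      (u₁ K q m / u₂ K q m * (jF K (m * q * q))⁻¹ ^ (2 * (q - 1))) := by
  have h := map_adjoin_singleton K (fullEquiv K _) _ _ (isIntegral_U_inv (m := m) ι hq).2
  rwa [map_mul, map_pow, map_div₀, map_inv₀, fullEquiv_uu₁, fullEquiv_uu₂, fullEquiv_jB] at h

theorem u₁_mul_u₂ : u₁ K q m * u₂ K q m = rF K ⟨1, one_dvd _⟩ ⟨q * q, dvd_qq⟩ :=
  rF_mul_rF K _ _ _ _

omit [Algebra ℚ K] in
theorem isIntegral_mul_const {A : Type*} [Field A] [Algebra K A] (R : Subalgebra K A) {x : A}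
    (hx : IsIntegral R x) (n : ℕ) : IsIntegral R ((n : A) * x) := by
  have h1 : IsIntegral R (n : A) := by
    have : (n : A) = algebraMap R A (n : R) := by simp
    rw [this]
    exact isIntegral_algebraMap
  exact h1.mul hx

/-- `q²⁴ Δ(q²τ)/(Δ(τ) j(τ))` is integral over `K[1/j]` -/
theorem isIntegral_W (ι : K →+* ℂ) :
    IsIntegral (Algebra.adjoin K {(jF K (m * q * q))⁻¹})
      ((q : modularFunctionFieldFullC K (m * q * q)) ^ 24 / (u₁ K q m * u₂ K q m) /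
        jF K (m * q * q)) := by
  have : NeZero (q * q) := Dv.neZero (N := m * q * q) ⟨q * q, dvd_qq⟩
  have h := (isIntegral_of_GB_full (K := K) (N := m * q * q) ι
    (isModFun_rr (dvd_qq (m := m) (q := q)) (one_dvd _)) (GB_W (q * q))
    (rF K ⟨q * q, dvd_qq⟩ ⟨1, one_dvd _⟩) (by
      rw [coe_rF, coeffMap_rS]
      exact lexp_rr (q * q) 1)).2
  rw [pow_one] at h
  have h1 : (q : modularFunctionFieldFullC K (m * q * q)) ^ 24 / (u₁ K q m * u₂ K q m) /
        jF K (m * q * q) = ((q ^ 24 : ℕ) : modularFunctionFieldFullC K (m * q * q)) *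
        (rF K ⟨q * q, dvd_qq⟩ ⟨1, one_dvd _⟩ * (jF K (m * q * q))⁻¹) := by
    rw [u₁_mul_u₂, ← rF_inv K (m * q * q) ⟨q * q, dvd_qq⟩ ⟨1, one_dvd _⟩]
    push_cast
    rw [div_eq_mul_inv, div_eq_mul_inv, inv_inv]
    ring
  rw [h1]
  exact isIntegral_mul_const _ h _

/-- `q²⁴ Δ(q²τ) j(q²τ)/(Δ(τ) j(τ))` is integral over `K[1/j]` -/
theorem isIntegral_Y (ι : K →+* ℂ) :
    IsIntegral (Algebra.adjoin K {(jF K (m * q * q))⁻¹})
      ((q : modularFunctionFieldFullC K (m * q * q)) ^ 24 / (u₁ K q m * u₂ K q m) * jq2 K q m /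
        jF K (m * q * q)) := by
  have : NeZero (q * q) := Dv.neZero (N := m * q * q) ⟨q * q, dvd_qq⟩
  have h := (isIntegral_of_GB_full (K := K) (N := m * q * q) ι
    (isModFun_Y (dvd_qq (m := m) (q := q))) (GB_Y (q * q))
    (rF K ⟨q * q, dvd_qq⟩ ⟨1, one_dvd _⟩ * jq2 K q m) (by
      have e1 : ((rF K (⟨q * q, dvd_qq⟩ : Dv (m * q * q)) ⟨1, one_dvd _⟩ * jq2 K q m :
        modularFunctionFieldFullC K (m * q * q)) : LaurentSeries K) =
        rS K (q * q) 1 * qExpand K (q * q) (jqModC K) := by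
        rw [MulMemClass.coe_mul, coe_rF]; rfl
      rw [e1, map_mul, coeffMap_rS, coeffMap_qExpand, coeffMap_jqModC]
      exact (lexp_rr (q * q) 1).mul (ModFun.lexp_jd (q * q)))).2
  rw [pow_one] at h
  have h1 : (q : modularFunctionFieldFullC K (m * q * q)) ^ 24 / (u₁ K q m * u₂ K q m) *
      jq2 K q m / jF K (m * q * q) = ((q ^ 24 : ℕ) : modularFunctionFieldFullC K (m * q * q)) *
        (rF K ⟨q * q, dvd_qq⟩ ⟨1, one_dvd _⟩ * jq2 K q m * (jF K (m * q * q))⁻¹) := by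
    rw [u₁_mul_u₂, ← rF_inv K (m * q * q) ⟨q * q, dvd_qq⟩ ⟨1, one_dvd _⟩]
    push_cast
    rw [div_eq_mul_inv, div_eq_mul_inv, inv_inv]
    ring
  rw [h1]
  exact isIntegral_mul_const _ h _

/-! ### The expansions `e₁`, `e₂` -/

theorem exists_e1_full (ι : K →+* ℂ) (hq : q.Prime) (hm : ¬ q ∣ m) (ζ : Kˣ)
    (hζ : IsPrimitiveRoot ζ q) [NeZero q] :
    ∃ e : modularFunctionFieldFullC K (m * q * q) →ₐ[K] LaurentSeries K,
      (∀ d : Dv (m * q * q), e (TriVal.jd K _ d.1 d.2) = S1 ζ d) ∧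
      e (u₁ K q m) = rS K 1 q ∧
      e (u₂ K q m) = algebraMap K _ ((q : K) ^ 12) *
        (qExpand K q (S28aux.deltaC K) * twist ζ (S28aux.deltaInvC K)) := by
  obtain ⟨e, he⟩ := exists_e1 ι hq hm ζ hζ
  refine ⟨e.comp (fullEquiv K _).symm.toAlgHom, fun d => ?_, ?_, ?_⟩
  · rw [AlgHom.comp_apply, AlgEquiv.coe_toAlgHom, fullEquiv_symm_jd, he]
  · rw [← fullEquiv_uu₁, AlgHom.comp_apply, AlgEquiv.coe_toAlgHom, AlgEquiv.symm_apply_apply]
    exact e1_uu₁ ι hq hm ζ hζ e he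
  · rw [← fullEquiv_uu₂, AlgHom.comp_apply, AlgEquiv.coe_toAlgHom, AlgEquiv.symm_apply_apply]
    exact e1_uu₂ ι hq hm ζ hζ e he

theorem exists_w_full (ι : K →+* ℂ) (hq : q.Prime)
    (hN : m * q * q = m * (q * q)) (hQ : q * q ≠ 0) (hc : (q * q).Coprime m) :
    ∃ w : modularFunctionFieldFullC K (m * q * q) ≃ₐ[K] modularFunctionFieldFullC K (m * q * q),
      (∀ d : Dv (m * q * q), w (TriVal.jd K _ d.1 d.2) =
        TriVal.jd K _ (TriGauss.swapQ _ (q * q) m hN hQ hc d).1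
          (TriGauss.swapQ _ (q * q) m hN hQ hc d).2) ∧
      (∀ f, w (w f) = f) ∧
      w (u₁ K q m) = algebraMap K _ ((q : K) ^ 12) / u₂ K q m ∧
      w (u₂ K q m) = algebraMap K _ ((q : K) ^ 12) / u₁ K q m := by
  obtain ⟨w, hw, hww⟩ := exists_atkinLehnerQ (K := K) ι hN hQ hc
  refine ⟨((fullEquiv K _).symm.trans w).trans (fullEquiv K _), fun d => ?_, fun f => ?_, ?_, ?_⟩
  · rw [AlgEquiv.trans_apply, AlgEquiv.trans_apply, fullEquiv_symm_jd, hw, fullEquiv_jdB]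
  · rw [AlgEquiv.trans_apply, AlgEquiv.trans_apply, AlgEquiv.trans_apply, AlgEquiv.trans_apply,
      AlgEquiv.symm_apply_apply, hww, AlgEquiv.apply_symm_apply]
  · rw [← fullEquiv_uu₁, AlgEquiv.trans_apply, AlgEquiv.trans_apply, AlgEquiv.symm_apply_apply]
    have h := w_uu₁ (m := m) ι hq hN hQ hc w.toAlgHom hw
    rw [AlgEquiv.coe_toAlgHom] at h
    rw [h, map_div₀, AlgEquiv.commutes, fullEquiv_uu₂]
  · rw [← fullEquiv_uu₂, AlgEquiv.trans_apply, AlgEquiv.trans_apply, AlgEquiv.symm_apply_apply]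
    have h := w_uu₂ (m := m) ι hN hQ hc w.toAlgHom hw
    rw [AlgEquiv.coe_toAlgHom] at h
    rw [h, map_div₀, AlgEquiv.commutes, fullEquiv_uu₁]

omit [Algebra ℚ K] in
theorem e1_jF {ζ : Kˣ} (hq : q.Prime) (hm : ¬ q ∣ m)
    {e : modularFunctionFieldFullC K (m * q * q) →ₐ[K] LaurentSeries K}
    (he : ∀ d : Dv (m * q * q), e (TriVal.jd K _ d.1 d.2) = S1 ζ d) :
    e (jF K (m * q * q)) = jqModC K := by
  have h := he ⟨1, one_dvd _⟩
  rw [S1_of_dvd_mq hq hm ζ _ (one_dvd _)] at h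
  refine h.trans ?_
  exact qExpand_one_apply (R := K) _

omit [Algebra ℚ K] in
theorem e1_jq2 {ζ : Kˣ} (hq : q.Prime)
    {e : modularFunctionFieldFullC K (m * q * q) →ₐ[K] LaurentSeries K}
    (he : ∀ d : Dv (m * q * q), e (TriVal.jd K _ d.1 d.2) = S1 ζ d) :
    e (jq2 K q m) = twist ζ (jqModC K) := by
  have h := he ⟨q * q, dvd_qq⟩
  have h2 : (⟨q * q, dvd_qq⟩ : Dv (m * q * q)) = ⟨q * q * 1, by rw [mul_one]; exact dvd_qq⟩ := by
    apply Subtype.ext; simp
  have h1 : S1 ζ (⟨q * q, dvd_qq⟩ : Dv (m * q * q)) = twist ζ (jqModC K) := by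
    rw [h2, S1_sq_mul hq]
    congr 1
    exact qExpand_one_apply (R := K) _
  rw [h1] at h
  exact h

omit [Algebra ℚ K] in
theorem e1_δF {ζ : Kˣ} (hq : q.Prime) (hm : ¬ q ∣ m)
    {e : modularFunctionFieldFullC K (m * q * q) →ₐ[K] LaurentSeries K}
    (he : ∀ d : Dv (m * q * q), e (TriVal.jd K _ d.1 d.2) = S1 ζ d) :
    e (δF K q m) = twist ζ (jqModC K) - jqModC K := by
  rw [δF, map_sub, e1_jq2 hq he, e1_jF hq hm he]

omit [Algebra ℚ K] in
theorem Tjd_congr {d d' : Dv (m * q * q)} (h : d = d') :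
    TriVal.jd K (m * q * q) d.1 d.2 = TriVal.jd K (m * q * q) d'.1 d'.2 := by
  subst h; rfl

omit [Algebra ℚ K] in
theorem w_jF (hN : m * q * q = m * (q * q)) (hQ : q * q ≠ 0) (hc : (q * q).Coprime m)
    {w : modularFunctionFieldFullC K (m * q * q) ≃ₐ[K] modularFunctionFieldFullC K (m * q * q)}
    (hw : ∀ d : Dv (m * q * q), w (TriVal.jd K _ d.1 d.2) =
        TriVal.jd K _ (TriGauss.swapQ _ (q * q) m hN hQ hc d).1
          (TriGauss.swapQ _ (q * q) m hN hQ hc d).2) :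
    w (jF K (m * q * q)) = jq2 K q m := by
  have h := hw ⟨1, one_dvd _⟩
  have h1 := TriGauss.swapQ_mul hN hQ hc (a := 1) (b := 1) (b' := q * q) (one_dvd _) (by ring)
    (one_dvd _) (by rw [one_mul]; exact dvd_qq)
  have h2 : TriGauss.swapQ (m * q * q) (q * q) m hN hQ hc ⟨1, one_dvd _⟩ =
      ⟨q * q, dvd_qq⟩ := by
    have h3 : (⟨1, one_dvd _⟩ : Dv (m * q * q)) = ⟨1 * 1, one_dvd _⟩ := rfl
    rw [h3, h1]
    apply Subtype.ext
    simp
  exact h.trans (Tjd_congr h2)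

end Level

end Fermat.Agent.TriGauss
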