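import Mathlib
import Fermat.Agent.TriGauss.Full
import Fermat.Agent.TriVal.Values

/-!
# The instance of `TriMod.Expan`
-/

set_option autoImplicit false

open Complex Function ModularCurve
open Fermat.Agent.X0Emb

noncomputable section

namespace Fermat.Agent.TriGauss

open Fermat.Agent.TwoGauss (Dv)

section

variable (L K : Type*) [Field L] [Field K] [Algebra L K] (N : ℕ)

/-- the expansion at infinity -/
def i0 : modularFunctionFieldFullC L N →+* LaurentSeries K :=
  (algebraMap (modularFunctionFieldFullC K N) (LaurentSeries K)).comp (TriVal.bc L K N)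

theorem i0_apply (f : modularFunctionFieldFullC L N) :
    i0 L K N f = (TriVal.bc L K N f : LaurentSeries K) := rfl

variable {L K N}

/-- the expansion attached to an embedding over `K` -/
def i1 (L : Type*) [Field L] [Algebra L K] (e : modularFunctionFieldFullC K N →ₐ[K] LaurentSeries K) :
    modularFunctionFieldFullC L N →+* LaurentSeries K := (e : _ →+* _).comp (TriVal.bc L K N)

theorem i1_apply (e : modularFunctionFieldFullC K N →ₐ[K] LaurentSeries K)
    (f : modularFunctionFieldFullC L N) : i1 L e f = e (TriVal.bc L K N f) := rfl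

/-- the expansion attached to an automorphism over `K` -/
def i2 (L : Type*) [Field L] [Algebra L K]
    (w : modularFunctionFieldFullC K N ≃ₐ[K] modularFunctionFieldFullC K N) :
    modularFunctionFieldFullC L N →+* LaurentSeries K :=
  (algebraMap (modularFunctionFieldFullC K N) (LaurentSeries K)).comp
    ((w : _ →+* _).comp (TriVal.bc L K N))

theorem i2_apply (w : modularFunctionFieldFullC K N ≃ₐ[K] modularFunctionFieldFullC K N)
    (f : modularFunctionFieldFullC L N) :
    i2 L w f = (w (TriVal.bc L K N f) : LaurentSeries K) := rfl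

end

variable {L K : Type*} [Field L] [Field K] [Algebra ℚ L] [Algebra ℚ K] [Algebra L K] {q m : ℕ}
  [NeZero (m * q * q)] [NeZero q]

omit [Algebra ℚ K] in
theorem rS_one_q : rS K 1 q = TriMod.U K q := by
  rw [rS, TriMod.U, qExpand_one_apply]

omit [Algebra ℚ K] in
theorem rS_q_qq [NeZero (q * q)] : rS K q (q * q) = qExpand K q (TriMod.U K q) := by
  rw [rS, TriMod.U, map_mul, qExpand_qExpand]

omit [Algebra ℚ K] in
theorem rS_qq_q [NeZero (q * q)] : rS K (q * q) q = qExpand K q (TriMod.Ui K q) := by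
  rw [rS, TriMod.Ui, map_mul, qExpand_qExpand]

omit [Algebra ℚ K] in
theorem rS_q_one : rS K q 1 = TriMod.Ui K q := by
  rw [rS, TriMod.Ui, qExpand_one_apply]

theorem expan {ζ : Kˣ} (hq : q.Prime) (hm : ¬ q ∣ m)
    {e : modularFunctionFieldFullC K (m * q * q) →ₐ[K] LaurentSeries K}
    (he : ∀ d : Dv (m * q * q), e (TriVal.jd K _ d.1 d.2) = S1 ζ d)
    (he₁ : e (u₁ K q m) = rS K 1 q)
    (he₂ : e (u₂ K q m) = algebraMap K _ ((q : K) ^ 12) *
        (qExpand K q (S28aux.deltaC K) * twist ζ (S28aux.deltaInvC K)))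
    {w : modularFunctionFieldFullC K (m * q * q) ≃ₐ[K] modularFunctionFieldFullC K (m * q * q)}
    (hw₁ : w (u₁ K q m) = algebraMap K _ ((q : K) ^ 12) / u₂ K q m)
    (hw₂ : w (u₂ K q m) = algebraMap K _ ((q : K) ^ 12) / u₁ K q m) :
    TriMod.Expan q ζ (i0 L K (m * q * q)) (i1 L e) (i2 L w) (δF L q m) (u₁ L q m) (u₂ L q m) := by
  have : NeZero (q * q) := Dv.neZero (N := m * q * q) ⟨q * q, dvd_qq⟩
  refine ⟨?_, ?_, ?_, ?_, ?_, ?_, ?_⟩
  · rw [i1_apply, bc_δF, e1_δF hq hm he]
  · rw [i0_apply, bc_u₁, u₁, coe_rF]; exact rS_one_q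
  · rw [i1_apply, bc_u₁, he₁]; exact rS_one_q
  · rw [i2_apply, bc_u₁, hw₁, div_eq_mul_inv, u₂, rF_inv, MulMemClass.coe_mul, coe_rF]
    congr 1
    exact rS_qq_q
  · rw [i0_apply, bc_u₂, u₂, coe_rF]; exact rS_q_qq
  · rw [i1_apply, bc_u₂, he₂]; rfl
  · rw [i2_apply, bc_u₂, hw₂, div_eq_mul_inv, u₁, rF_inv, MulMemClass.coe_mul, coe_rF]
    congr 1
    exact rS_q_one

end Fermat.Agent.TriGauss
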